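import Mathlib
import Fermat.Agent.LT.Descent.Kernel.Defs

set_option autoImplicit false

/-!
# Operators on the cosets with finite rows
-/

noncomputable section

open NumberField IsDedekindDomain
open scoped ComplexConjugate

namespace FermatAgent.LT.CO

variable {L : Type*} [Field L] [NumberField L] {𝔫 : Ideal (𝓞 L)}
  {T T' : Module.End ℂ (Cosets 𝔫 → ℂ)}

/-- Each value of `T f` is a finite combination of values of `f`. -/
def FinRow (T : Module.End ℂ (Cosets 𝔫 → ℂ)) : Prop :=
  ∀ a, ∃ (s : Finset (Cosets 𝔫)) (c : Cosets 𝔫 → ℂ), ∀ f, T f a = ∑ b ∈ s, c b * f b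

/-- `T` commutes with left translations. -/
def Equiv' (T : Module.End ℂ (Cosets 𝔫 → ℂ)) : Prop :=
  ∀ (g : GAf L) (f : Cosets 𝔫 → ℂ) (q : Cosets 𝔫), T (fun p => f (g • p)) q = T f (g • q)

open Classical in
theorem finKer_eq {a : Cosets 𝔫} {s : Finset (Cosets 𝔫)} {c : Cosets 𝔫 → ℂ}
    (h : ∀ f, T f a = ∑ b ∈ s, c b * f b) (b : Cosets 𝔫) :
    finKer T a b = if b ∈ s then c b else 0 := by
  rw [finKer, h]
  simp [Pi.single_apply]

theorem FinRow.row (h : FinRow T) (a : Cosets 𝔫) :
    (Function.support fun b => finKer T a b).Finite := by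
  obtain ⟨s, c, hs⟩ := h a
  refine s.finite_toSet.subset fun b hb => ?_
  by_contra hbs
  exact hb (by show finKer T a b = 0; rw [finKer_eq hs, if_neg (by simpa using hbs)])

theorem FinRow.expand (h : FinRow T) (f : Cosets 𝔫 → ℂ) (a : Cosets 𝔫) :
    T f a = ∑ᶠ b, finKer T a b * f b := by
  obtain ⟨s, c, hs⟩ := h a
  rw [finsum_eq_sum_of_support_subset _ (s := s) ?_, hs]
  · exact Finset.sum_congr rfl fun b hb => by rw [finKer_eq hs, if_pos hb]
  · intro b hb
    by_contra hbs
    exact hb (by show finKer T a b * f b = 0; rw [finKer_eq hs, if_neg (by simpa using hbs), zero_mul])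

theorem finRow_of_isCosetOp (h : IsCosetOp T) : FinRow T := fun a =>
  ⟨(h.row a).toFinset, fun b => finKer T a b, fun f => by
    rw [h.expand, finsum_eq_sum_of_support_subset _ (s := (h.row a).toFinset) ?_]
    intro b hb
    simp only [Set.Finite.coe_toFinset, Function.mem_support] at hb ⊢
    exact left_ne_zero_of_mul hb⟩

theorem finRow_one : FinRow (1 : Module.End ℂ (Cosets 𝔫 → ℂ)) := fun a =>
  ⟨{a}, 1, fun f => by simp⟩

open Classical in
theorem FinRow.add (h : FinRow T) (h' : FinRow T') : FinRow (T + T') := fun a => by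
  obtain ⟨s, c, hs⟩ := h a
  obtain ⟨s', c', hs'⟩ := h' a
  refine ⟨s ∪ s', fun b => (if b ∈ s then c b else 0) + if b ∈ s' then c' b else 0, fun f => ?_⟩
  simp only [LinearMap.add_apply, Pi.add_apply, hs, hs', add_mul, Finset.sum_add_distrib, ite_mul,
    zero_mul, Finset.sum_ite_mem, Finset.union_inter_cancel_left, Finset.union_inter_cancel_right]

theorem finRow_zero : FinRow (0 : Module.End ℂ (Cosets 𝔫 → ℂ)) := fun _ =>
  ⟨∅, 0, fun f => by simp⟩

theorem FinRow.smul (h : FinRow T) (z : ℂ) : FinRow (z • T) := fun a => by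
  obtain ⟨s, c, hs⟩ := h a
  exact ⟨s, fun b => z * c b, fun f => by simp [hs, Finset.mul_sum, mul_assoc]⟩

theorem finRow_sum {ι : Type*} (t : Finset ι) (U : ι → Module.End ℂ (Cosets 𝔫 → ℂ))
    (h : ∀ i ∈ t, FinRow (U i)) : FinRow (∑ i ∈ t, U i) :=
  Finset.sum_induction _ FinRow (fun _ _ ha hb => ha.add hb) finRow_zero h

open Classical in
theorem FinRow.mul (h : FinRow T) (h' : FinRow T') : FinRow (T * T') := fun a => by
  obtain ⟨s, c, hs⟩ := h a
  choose s' c' hs' using h'
  refine ⟨s.biUnion s', fun d => ∑ b ∈ s, c b * finKer T' b d, fun f => ?_⟩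
  simp only [Module.End.mul_apply, hs, Finset.sum_mul]
  rw [Finset.sum_comm]
  refine Finset.sum_congr rfl fun b hb => ?_
  rw [hs' b f, Finset.mul_sum]
  refine Finset.sum_subset_zero_on_sdiff (Finset.subset_biUnion_of_mem s' hb) (fun d hd => ?_)
    fun d hd => ?_
  · rw [finKer_eq (hs' b), if_neg (Finset.mem_sdiff.mp hd).2]; simp
  · rw [finKer_eq (hs' b), if_pos hd, mul_assoc]

theorem equiv_one : Equiv' (1 : Module.End ℂ (Cosets 𝔫 → ℂ)) := fun _ _ _ => rfl

theorem Equiv'.add (h : Equiv' T) (h' : Equiv' T') : Equiv' (T + T') := fun g f q => by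
  simp [h g f q, h' g f q]

theorem Equiv'.smul (h : Equiv' T) (z : ℂ) : Equiv' (z • T) := fun g f q => by simp [h g f q]

theorem Equiv'.mul (h : Equiv' T) (h' : Equiv' T') : Equiv' (T * T') := fun g f q => by
  simp only [Module.End.mul_apply]
  rw [show T' (fun p => f (g • p)) = fun p => T' f (g • p) from funext (h' g f)]
  exact h g (T' f) q

theorem equiv_zero : Equiv' (0 : Module.End ℂ (Cosets 𝔫 → ℂ)) := fun _ _ _ => rfl

open Classical in
theorem finKer_smul' (hT : Equiv' T) (g : GAf L) (a b : Cosets 𝔫) :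
    finKer T (g • a) (g • b) = finKer T a b := by
  rw [finKer, finKer, ← hT g (Pi.single (g • b) 1) a]
  refine congrArg (fun f => T f a) (funext fun p => ?_)
  by_cases hp : p = b
  · subst hp; simp
  · rw [Pi.single_eq_of_ne hp, Pi.single_eq_of_ne fun h => hp (smul_left_cancel g h)]

open Classical in
theorem _root_.FermatAgent.LT.IsCosetOp.exists_bound (h : IsCosetOp T) : ∃ C : ℝ, ∀ a,
    ∑ᶠ b, ‖finKer T a b‖ ≤ C ∧ ∑ᶠ b, ‖finKer T b a‖ ≤ C := by
  set o : Cosets 𝔫 := ((1 : GAf L) : Cosets 𝔫) with ho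
  refine ⟨max (∑ᶠ b, ‖finKer T o b‖) (∑ᶠ b, ‖finKer T b o‖), fun a => ?_⟩
  obtain ⟨g, rfl⟩ := QuotientGroup.mk_surjective a
  have hg : (g : Cosets 𝔫) = g • o := by rw [ho, MulAction.Quotient.smul_mk, smul_eq_mul, mul_one]
  rw [hg]
  constructor
  · rw [← finsum_comp_equiv (MulAction.toPerm g) (f := fun b => ‖finKer T (g • o) b‖)]
    simp only [MulAction.toPerm_apply, finKer_smul' h.equivariant]
    exact le_max_left _ _
  · rw [← finsum_comp_equiv (MulAction.toPerm g) (f := fun b => ‖finKer T b (g • o)‖)]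
    simp only [MulAction.toPerm_apply, finKer_smul' h.equivariant]
    exact le_max_right _ _

theorem _root_.FermatAgent.LT.IsCosetOp.finKer_mul (h : IsCosetOp T) (a c : Cosets 𝔫) :
    finKer (T * T') a c = ∑ᶠ b, finKer T a b * finKer T' b c := by
  unfold finKer
  rw [Module.End.mul_apply, h.expand]
  rfl

theorem _root_.FermatAgent.LT.IsCosetOp.mul (h : IsCosetOp T) (h' : IsCosetOp T') : IsCosetOp (T * T') := by
  have hf := (finRow_of_isCosetOp h).mul (finRow_of_isCosetOp h')
  refine ⟨Equiv'.mul h.equivariant h'.equivariant, hf.row, fun c => ?_, hf.expand⟩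
  refine ((h'.col c).biUnion fun b _ => h.col b).subset fun a ha => ?_
  rw [Function.mem_support, IsCosetOp.finKer_mul h] at ha
  obtain ⟨b, hb⟩ : ∃ b, finKer T a b * finKer T' b c ≠ 0 := by
    by_contra! h0
    exact ha (finsum_eq_zero_of_forall_eq_zero h0)
  exact Set.mem_biUnion (x := b) (right_ne_zero_of_mul hb) (left_ne_zero_of_mul hb)

open Classical in
theorem _root_.FermatAgent.LT.isCosetOp_one : IsCosetOp (1 : Module.End ℂ (Cosets 𝔫 → ℂ)) := by
  refine ⟨equiv_one, finRow_one.row, fun b => ?_, finRow_one.expand⟩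
  refine (Set.finite_singleton b).subset fun a ha => ?_
  by_contra hne
  exact ha (by simp only [finKer, Module.End.one_apply]; exact Pi.single_eq_of_ne hne _)

theorem _root_.FermatAgent.LT.IsCosetOp.add (h : IsCosetOp T) (h' : IsCosetOp T') : IsCosetOp (T + T') := by
  have hf := (finRow_of_isCosetOp h).add (finRow_of_isCosetOp h')
  refine ⟨Equiv'.add h.equivariant h'.equivariant, hf.row, fun c => ?_, hf.expand⟩
  refine ((h.col c).union (h'.col c)).subset fun a ha => ?_
  by_contra hn
  simp only [Set.mem_union, Function.mem_support, not_or, not_not, finKer] at hn ha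
  exact ha (by simp [hn.1, hn.2])

theorem _root_.FermatAgent.LT.IsCosetOp.smul (h : IsCosetOp T) (z : ℂ) : IsCosetOp (z • T) := by
  have hf := (finRow_of_isCosetOp h).smul z
  refine ⟨Equiv'.smul h.equivariant z, hf.row, fun c => ?_, hf.expand⟩
  refine (h.col c).subset fun a ha => ?_
  simp only [Function.mem_support, finKer, LinearMap.smul_apply, Pi.smul_apply, smul_eq_mul] at ha ⊢
  exact right_ne_zero_of_mul ha

theorem _root_.FermatAgent.LT.IsHermOp.mul_of_commute (h : IsCosetOp T) (h' : IsCosetOp T') (hT : IsHermOp T)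
    (hT' : IsHermOp T') (hc : Commute T T') : IsHermOp (T * T') := by
  intro a c
  conv_rhs => rw [hc.eq, IsCosetOp.finKer_mul h']
  rw [IsCosetOp.finKer_mul h]
  rw [map_finsum (starRingEnd ℂ) ((h.row a).subset fun b hb => left_ne_zero_of_mul hb)]
  refine finsum_congr fun b => ?_
  rw [map_mul, hT a b, hT' b c, mul_comm]

theorem hermOp_one : IsHermOp (1 : Module.End ℂ (Cosets 𝔫 → ℂ)) := fun a b => by
  classical
  simp only [finKer, Module.End.one_apply, Pi.single_apply]
  split_ifs with h1 h2 h2 <;> simp_all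

end FermatAgent.LT.CO

end
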