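import Mathlib
import Fermat.Agent.LT.Descent.Kernel.Defs
import Fermat.Agent.LT.MultOne.StrongApprox
import Fermat.Agent.LT.Base.Siegel

set_option autoImplicit false

/-!
# Local components of the congruence subgroups
-/

noncomputable section

open NumberField IsDedekindDomain WithZero Filter
open scoped Matrix

namespace FermatAgent.LT.CO

variable {L : Type*} [Field L] [NumberField L]

/-- The local component of an adelic matrix. -/
def locMat (v : HeightOneSpectrum (𝓞 L)) : GAf L →* GL (Fin 2) (v.adicCompletion L) :=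
  Matrix.GeneralLinearGroup.map
    { toFun := fun a : Adf L => a v
      map_one' := rfl
      map_zero' := rfl
      map_mul' := fun _ _ => rfl
      map_add' := fun _ _ => rfl }

theorem locMat_apply (v : HeightOneSpectrum (𝓞 L)) (g : GAf L) (i j : Fin 2) :
    locMat v g i j = g i j v := rfl

theorem ext_locMat {g h : GAf L} (e : ∀ v, locMat v g = locMat v h) : g = h :=
  Units.ext (Matrix.ext fun i j => FiniteAdeleRing.ext _ fun v =>
    congrArg (fun M : GL (Fin 2) (v.adicCompletion L) => M i j) (e v))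

theorem locMat_atPlace_self (v : HeightOneSpectrum (𝓞 L)) (M : GL (Fin 2) (v.adicCompletion L)) :
    locMat v (atPlace v M) = M :=
  Units.ext (Matrix.ext fun i j => updAt_self v (M i j) _)

theorem locMat_atPlace_ne {v w : HeightOneSpectrum (𝓞 L)} (M : GL (Fin 2) (v.adicCompletion L))
    (h : w ≠ v) : locMat w (atPlace v M) = 1 :=
  Units.ext (Matrix.ext fun i j => (updAt_of_ne v (M i j) _ h).trans (by
    simp only [Units.val_one, Matrix.one_apply]
    split_ifs <;> simp))

theorem atPlace_commute' {v w : HeightOneSpectrum (𝓞 L)} (h : v ≠ w)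
    (M : GL (Fin 2) (v.adicCompletion L)) (N : GL (Fin 2) (w.adicCompletion L)) :
    Commute (atPlace v M) (atPlace w N) := by
  refine ext_locMat fun u => ?_
  rw [map_mul, map_mul]
  rcases eq_or_ne u v with rfl | hu
  · rw [locMat_atPlace_ne N h, mul_one, one_mul]
  · rw [locMat_atPlace_ne M hu, mul_one, one_mul]

variable (v : HeightOneSpectrum (𝓞 L))

/-- All entries have valuation at most `exp (-n)`. -/
def SmallM (n : ℕ) (A : Matrix (Fin 2) (Fin 2) (v.adicCompletion L)) : Prop :=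
  ∀ i j, Valued.v (A i j) ≤ exp (-(n : ℤ))

variable {v}

theorem SmallM.anti {n m : ℕ} (h : m ≤ n) {A : Matrix (Fin 2) (Fin 2) (v.adicCompletion L)}
    (hA : SmallM v n A) : SmallM v m A := fun i j =>
  (hA i j).trans (exp_le_exp.mpr (neg_le_neg (Int.ofNat_le.mpr h)))

theorem SmallM.add {n : ℕ} {A B : Matrix (Fin 2) (Fin 2) (v.adicCompletion L)} (hA : SmallM v n A)
    (hB : SmallM v n B) : SmallM v n (A + B) := fun i j =>
  (Valuation.map_add _ _ _).trans (max_le (hA i j) (hB i j))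

theorem SmallM.neg {n : ℕ} {A : Matrix (Fin 2) (Fin 2) (v.adicCompletion L)} (hA : SmallM v n A) :
    SmallM v n (-A) := fun i j => by rw [Matrix.neg_apply, Valuation.map_neg]; exact hA i j

theorem smallM_one : SmallM v 0 (1 : Matrix (Fin 2) (Fin 2) (v.adicCompletion L)) := fun i j => by
  rw [Matrix.one_apply]; split_ifs <;> simp

theorem SmallM.mul {n m : ℕ} {A B : Matrix (Fin 2) (Fin 2) (v.adicCompletion L)} (hA : SmallM v n A)
    (hB : SmallM v m B) : SmallM v (n + m) (A * B) := fun i j => by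
  rw [Matrix.mul_apply, Fin.sum_univ_two]
  have h : ∀ k, Valued.v (A i k * B k j) ≤ exp (-((n + m : ℕ) : ℤ)) := fun k => by
    rw [map_mul, show (-((n + m : ℕ) : ℤ)) = -(n : ℤ) + -(m : ℤ) by push_cast; ring, exp_add]
    exact mul_le_mul' (hA i k) (hB k j)
  exact (Valuation.map_add _ _ _).trans (max_le (h 0) (h 1))

theorem smallM_of_le_one {A : Matrix (Fin 2) (Fin 2) (v.adicCompletion L)}
    (h : ∀ i j, Valued.v (A i j) ≤ 1) : SmallM v 0 A := fun i j => by simpa using h i j

theorem SmallM.le_one {n : ℕ} {A : Matrix (Fin 2) (Fin 2) (v.adicCompletion L)} (hA : SmallM v n A)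
    (i j : Fin 2) : Valued.v (A i j) ≤ 1 := by
  simpa using hA.anti (Nat.zero_le n) i j

variable (v)

/-- The principal congruence subgroup of exponent `n` at `v`. -/
def locCongr (n : ℕ) : Subgroup (GL (Fin 2) (v.adicCompletion L)) where
  carrier := {g | SmallM v n (g.val - 1) ∧ SmallM v n (g⁻¹.val - 1)}
  one_mem' := by
    simp only [Set.mem_ofPred_eq, inv_one, Units.val_one, sub_self, and_self]
    exact fun i j => by simp
  mul_mem' := fun {a b} ha hb => by
    have key : ∀ A B : Matrix (Fin 2) (Fin 2) (v.adicCompletion L),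
        SmallM v n (A - 1) → SmallM v n (B - 1) → SmallM v n (A * B - 1) := fun A B hA hB => by
      rw [show A * B - 1 = (A - 1) * (B - 1) + (A - 1) + (B - 1) by noncomm_ring]
      exact (((hA.mul hB).anti (Nat.le_add_right n n)).add hA).add hB
    refine ⟨?_, ?_⟩
    · rw [Units.val_mul]; exact key _ _ ha.1 hb.1
    · rw [mul_inv_rev, Units.val_mul]; exact key _ _ hb.2 ha.2
  inv_mem' := fun {a} ha => ⟨ha.2, by rw [inv_inv]; exact ha.1⟩

variable {v}

theorem locCongr_anti {n m : ℕ} (h : m ≤ n) : locCongr v n ≤ locCongr v m := fun _ hg =>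
  ⟨hg.1.anti h, hg.2.anti h⟩

theorem smallM_of_mem {g : GL (Fin 2) (v.adicCompletion L)} (hg : g ∈ locCongr v 0) :
    SmallM v 0 g.val := by
  simpa using hg.1.add smallM_one

theorem mem_locCongr_zero {g : GL (Fin 2) (v.adicCompletion L)} :
    g ∈ locCongr v 0 ↔ SmallM v 0 g.val ∧ SmallM v 0 g⁻¹.val := by
  refine ⟨fun h => ⟨smallM_of_mem h, smallM_of_mem (inv_mem h)⟩, fun h => ⟨?_, ?_⟩⟩
  · rw [sub_eq_add_neg]; exact h.1.add smallM_one.neg
  · rw [sub_eq_add_neg]; exact h.2.add smallM_one.neg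

theorem inv_val_fin_two {R : Type*} [Field R] (g : GL (Fin 2) R) :
    (g⁻¹).val = g.val.det⁻¹ • !![g.val 1 1, -g.val 0 1; -g.val 1 0, g.val 0 0] := by
  rw [Matrix.coe_units_inv, Matrix.inv_def, Matrix.adjugate_fin_two, Ring.inverse_eq_inv']

theorem mem_locCongr_zero_of_det {g : GL (Fin 2) (v.adicCompletion L)}
    (hg : SmallM v 0 g.val) (hd : Valued.v g.val.det = 1) : g ∈ locCongr v 0 := by
  refine mem_locCongr_zero.mpr ⟨hg, smallM_of_le_one fun i j => ?_⟩
  rw [inv_val_fin_two, Matrix.smul_apply, smul_eq_mul, map_mul, map_inv₀, hd, inv_one, one_mul]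
  fin_cases i <;> fin_cases j <;> simpa using hg.le_one _ _

theorem mem_locCongr_of {n : ℕ} {g : GL (Fin 2) (v.adicCompletion L)} (h0 : g ∈ locCongr v 0)
    (h : SmallM v n (g.val - 1)) : g ∈ locCongr v n := by
  refine ⟨h, ?_⟩
  rw [show g⁻¹.val - 1 = -(g⁻¹.val * (g.val - 1)) by
    rw [mul_sub, ← Units.val_mul, inv_mul_cancel, Units.val_one, mul_one, neg_sub]]
  simpa using ((smallM_of_mem (inv_mem h0)).mul h).neg

theorem conj_mem_locCongr {n : ℕ} {g h : GL (Fin 2) (v.adicCompletion L)} (hg : g ∈ locCongr v 0)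
    (hh : h ∈ locCongr v n) : g * h * g⁻¹ ∈ locCongr v n := by
  have key : ∀ H : Matrix (Fin 2) (Fin 2) (v.adicCompletion L), SmallM v n (H - 1) →
      SmallM v n (g.val * H * g⁻¹.val - 1) := fun H hH => by
    rw [show g.val * H * g⁻¹.val - 1 = g.val * (H - 1) * g⁻¹.val by
      rw [mul_sub, sub_mul, mul_one, ← Units.val_mul g g⁻¹, mul_inv_cancel, Units.val_one]]
    simpa using ((smallM_of_mem hg).mul hH).mul (smallM_of_mem (inv_mem hg))
  refine ⟨?_, ?_⟩
  · rw [Units.val_mul, Units.val_mul]; exact key _ hh.1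
  · rw [show (g * h * g⁻¹)⁻¹ = g * h⁻¹ * g⁻¹ by group, Units.val_mul, Units.val_mul]
    exact key _ hh.2

/-- Integral matrices close to each other differ by the congruence subgroup. -/
theorem inv_mul_mem_locCongr {n : ℕ} {A B : GL (Fin 2) (v.adicCompletion L)}
    (hA : A ∈ locCongr v 0) (hB : B ∈ locCongr v 0) (h : SmallM v n (B.val - A.val)) :
    A⁻¹ * B ∈ locCongr v n := by
  refine mem_locCongr_of (mul_mem (inv_mem hA) hB) ?_
  rw [show (A⁻¹ * B).val - 1 = A⁻¹.val * (B.val - A.val) by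
    rw [mul_sub, ← Units.val_mul, ← Units.val_mul, inv_mul_cancel, Units.val_one]]
  simpa using (smallM_of_mem (inv_mem hA)).mul h

theorem valued_det_eq_one {g : GL (Fin 2) (v.adicCompletion L)} (hg : g ∈ locCongr v 0) :
    Valued.v g.val.det = 1 := by
  have key : ∀ A : Matrix (Fin 2) (Fin 2) (v.adicCompletion L), SmallM v 0 A →
      Valued.v A.det ≤ 1 := fun A hA => by
    rw [Matrix.det_fin_two]
    refine (Valuation.map_sub _ _ _).trans (max_le ?_ ?_) <;> rw [map_mul] <;>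
      exact mul_le_one' (hA.le_one _ _) (hA.le_one _ _)
  refine le_antisymm (key _ (smallM_of_mem hg)) ?_
  have h1 : Valued.v g.val.det * Valued.v g⁻¹.val.det = 1 := by
    rw [← map_mul, ← Matrix.det_mul, ← Units.val_mul, mul_inv_cancel, Units.val_one, Matrix.det_one,
      map_one]
  calc (1 : WithZero (Multiplicative ℤ)) = Valued.v g.val.det * Valued.v g⁻¹.val.det := h1.symm
    _ ≤ Valued.v g.val.det * 1 := mul_le_mul_right (key _ (smallM_of_mem (inv_mem hg))) _
    _ = _ := mul_one _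

/-- The exponent of `𝔫` at `v`. -/
def lvl (𝔫 : Ideal (𝓞 L)) (v : HeightOneSpectrum (𝓞 L)) : ℕ := (ordAt v 𝔫).toNat

variable {𝔫 : Ideal (𝓞 L)}

theorem le_lvl_iff (h : 𝔫 ≠ ⊥) (v : HeightOneSpectrum (𝓞 L)) (k : ℕ) :
    k ≤ lvl 𝔫 v ↔ 𝔫 ≤ v.asIdeal ^ k := by
  classical
  simp only [lvl, ordAt, FractionalIdeal.count_coe L v h, Int.toNat_natCast]
  rw [← Associates.prime_pow_dvd_iff_le (Associates.mk_ne_zero.mpr h)
    (Associates.irreducible_mk.mpr v.irreducible), ← Associates.mk_pow,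
    Associates.mk_le_mk_iff_dvd, Ideal.dvd_iff_le]

theorem isLevelExp_lvl (h : 𝔫 ≠ ⊥) : IsLevelExp 𝔫 (lvl 𝔫) := fun v k hk =>
  (le_lvl_iff h v k).mpr hk

theorem eventually_lvl (h : 𝔫 ≠ ⊥) : ∀ᶠ v in cofinite, lvl 𝔫 v = 0 := by
  filter_upwards [eventually_ordAt_eq_zero h] with v hv
  simp [lvl, hv]

theorem lvl_eq_zero (h : 𝔫 ≠ ⊥) (hv : ¬ 𝔫 ≤ v.asIdeal) : lvl 𝔫 v = 0 := by
  by_contra hne
  exact hv (by simpa using (le_lvl_iff h v 1).mp (Nat.one_le_iff_ne_zero.mpr hne))

theorem lvl_eq_one (h : 𝔫 ≠ ⊥) (h1 : 𝔫 ≤ v.asIdeal) (h2 : ¬ 𝔫 ≤ v.asIdeal ^ 2) : lvl 𝔫 v = 1 := by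
  have a := (le_lvl_iff h v 1).mpr (by simpa using h1)
  have b : ¬ 2 ≤ lvl 𝔫 v := fun hh => h2 ((le_lvl_iff h v 2).mp hh)
  omega

theorem valued_le_of_mem_map (h : 𝔫 ≠ ⊥) {x : IntAd L}
    (hx : x ∈ 𝔫.map (RingHom.pi fun v : HeightOneSpectrum (𝓞 L) =>
      algebraMap (𝓞 L) (v.adicCompletionIntegers L))) (v : HeightOneSpectrum (𝓞 L)) :
    Valued.v (x v : v.adicCompletion L) ≤ exp (-(lvl 𝔫 v : ℤ)) := by
  let J : Ideal (IntAd L) :=
    { carrier := {y | Valued.v (y v : v.adicCompletion L) ≤ exp (-(lvl 𝔫 v : ℤ))}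
      zero_mem' := by simp
      add_mem' := fun {a b} ha hb => by
        show Valued.v ((a v : v.adicCompletion L) + (b v : v.adicCompletion L)) ≤ _
        exact (Valuation.map_add _ _ _).trans (max_le ha hb)
      smul_mem' := fun c y hy => by
        show Valued.v ((c v : v.adicCompletion L) * (y v : v.adicCompletion L)) ≤ _
        rw [map_mul]
        exact (mul_le_mul' (c v).2 hy).trans_eq (one_mul _) }
  refine (Ideal.map_le_iff_le_comap.mpr ?_ : 𝔫.map _ ≤ J) hx
  intro a ha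
  show Valued.v (loc v (a : L)) ≤ _
  rw [valued_loc, HeightOneSpectrum.valuation_of_algebraMap, v.intValuation_le_pow_iff_mem]
  exact (le_lvl_iff h v _).mp le_rfl ha

theorem mem_congr_iff (h : 𝔫 ≠ ⊥) {g : GAf L} :
    g ∈ congrSubgroup 𝔫 ↔ ∀ v, locMat v g ∈ locCongr v (lvl 𝔫 v) := by
  constructor
  · intro hg v
    obtain ⟨k, hk, rfl⟩ := Subgroup.mem_map.mp hg
    have hone : ∀ (k : GL (Fin 2) (IntAd L)), k ∈ (Matrix.GeneralLinearGroup.map (n := Fin 2)
        (Ideal.Quotient.mk (𝔫.map (RingHom.pi fun v : HeightOneSpectrum (𝓞 L) =>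
          algebraMap (𝓞 L) (v.adicCompletionIntegers L))))).ker →
        SmallM v (lvl 𝔫 v) ((locMat v (Matrix.GeneralLinearGroup.map intToAdele k)).val - 1) := by
      intro k hk i j
      have h1 := congrArg (fun M : GL (Fin 2) _ => M i j) (MonoidHom.mem_ker.mp hk)
      simp only [Matrix.GeneralLinearGroup.map_apply, Units.val_one] at h1
      rw [← Matrix.map_one (Ideal.Quotient.mk _) (map_zero _) (map_one _), Matrix.map_apply,
        Ideal.Quotient.eq] at h1
      refine le_of_eq_of_le (congrArg Valued.v ?_) (valued_le_of_mem_map h h1 v)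
      rw [Matrix.sub_apply, Matrix.one_apply, Matrix.one_apply]
      split_ifs <;> rfl
    exact ⟨hone k hk, by rw [← map_inv, ← map_inv]; exact hone _ (inv_mem hk)⟩
  · intro hg
    refine mem_congrSubgroup_of_small (isLevelExp_lvl h) (fun i j v => ?_) fun i j v => ?_
    · rw [adele_sub_apply]
      refine le_of_eq_of_le (congrArg Valued.v ?_) ((hg v).1 i j)
      rw [Matrix.sub_apply, Matrix.one_apply, Matrix.one_apply]
      split_ifs <;> rfl
    · rw [adele_sub_apply]
      refine le_of_eq_of_le (congrArg Valued.v ?_) ((hg v).2 i j)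
      rw [← map_inv, Matrix.sub_apply, Matrix.one_apply, Matrix.one_apply]
      split_ifs <;> rfl

theorem mem_levelGroup_iff {g : GAf L} :
    g ∈ levelGroup 𝔫 ↔ ∃ u ∈ congrSubgroup 𝔫, ∃ z : (Adf L)ˣ,
      g = u * Matrix.GeneralLinearGroup.scalar (Fin 2) z := by
  constructor
  · intro hg
    obtain ⟨u, hu, z, hz, rfl⟩ := (Subgroup.mem_sup_of_normal_right (s := congrSubgroup 𝔫)
      (t := Subgroup.center (GAf L))).mp hg
    rw [Matrix.GeneralLinearGroup.center_eq_range_scalar] at hz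
    obtain ⟨z, rfl⟩ := hz
    exact ⟨u, hu, z, rfl⟩
  · rintro ⟨u, hu, z, rfl⟩
    refine Subgroup.mul_mem_sup hu ?_
    rw [Matrix.GeneralLinearGroup.center_eq_range_scalar]
    exact ⟨z, rfl⟩

theorem scalar_commute (z : (Adf L)ˣ) (g : GAf L) :
    Matrix.GeneralLinearGroup.scalar (Fin 2) z * g = g * Matrix.GeneralLinearGroup.scalar (Fin 2) z :=
  (Subgroup.mem_center_iff.mp (by
    rw [Matrix.GeneralLinearGroup.center_eq_range_scalar]; exact ⟨z, rfl⟩) g).symm

theorem mk_eq_of_inv_mul {g h : GAf L} (hm : g⁻¹ * h ∈ congrSubgroup 𝔫) :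
    (g : Cosets 𝔫) = (h : Cosets 𝔫) :=
  QuotientGroup.eq.mpr (Subgroup.mem_sup_left hm)

theorem mk_mul_scalar (g : GAf L) (z : (Adf L)ˣ) :
    ((g * Matrix.GeneralLinearGroup.scalar (Fin 2) z : GAf L) : Cosets 𝔫) = (g : Cosets 𝔫) := by
  refine (QuotientGroup.eq.mpr ?_).symm
  rw [inv_mul_cancel_left]
  exact mem_levelGroup_iff.mpr ⟨1, one_mem _, z, (one_mul _).symm⟩

/-- The orbits of the level group on the cosets are finite. -/
theorem finite_level_orbit (h : 𝔫 ≠ ⊥) (q : Cosets 𝔫) :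
    (Set.range fun u : levelGroup 𝔫 => (u : GAf L) • q).Finite := by
  classical
  obtain ⟨g, rfl⟩ := QuotientGroup.mk_surjective q
  obtain ⟨e, he, hfix⟩ := exists_fix_exp h {g}
  obtain ⟨m, hm, hmv⟩ := exists_int_small e he
  have hm0 : Ideal.span {m} ≠ ⊥ := by simpa using hm
  obtain ⟨R, hR, hrep⟩ := exists_finite_int_reps hm0
  refine (hR.image fun r => ((Matrix.GeneralLinearGroup.map intToAdele r * g : GAf L) : Cosets 𝔫)).subset ?_
  rintro _ ⟨⟨u, hu⟩, rfl⟩
  obtain ⟨u0, hu0, z, rfl⟩ := mem_levelGroup_iff.mp hu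
  obtain ⟨k, rfl⟩ := exists_map_eq_of_mem_congrSubgroup hu0
  obtain ⟨r, hr, hk⟩ := hrep k
  set k' := (Matrix.GeneralLinearGroup.map intToAdele r)⁻¹ * Matrix.GeneralLinearGroup.map intToAdele k
  have hle : ∀ v, e v ≤ lvl (Ideal.span {m}) v := fun v => by
    rw [le_lvl_iff hm0, Ideal.span_singleton_le_iff_mem, ← v.intValuation_le_pow_iff_mem]
    have := hmv v
    rwa [valued_loc, HeightOneSpectrum.valuation_of_algebraMap] at this
  have hnear : IsNearOne e k' := by
    refine ⟨fun i j v => ?_, fun i j v => ?_⟩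
    · rw [adele_sub_apply]
      refine le_of_eq_of_le (congrArg Valued.v ?_) ((locCongr_anti (hle v) ((mem_congr_iff hm0).mp hk v)).1 i j)
      rw [Matrix.sub_apply, Matrix.one_apply, Matrix.one_apply]
      split_ifs <;> rfl
    · rw [adele_sub_apply]
      refine le_of_eq_of_le (congrArg Valued.v ?_) ((locCongr_anti (hle v) ((mem_congr_iff hm0).mp hk v)).2 i j)
      rw [← map_inv, Matrix.sub_apply, Matrix.one_apply, Matrix.one_apply]
      split_ifs <;> rfl
  refine ⟨r, hr, ?_⟩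
  simp only [MulAction.Quotient.smul_mk, smul_eq_mul]
  rw [mul_assoc, scalar_commute, ← mul_assoc, mk_mul_scalar,
    show Matrix.GeneralLinearGroup.map intToAdele k = Matrix.GeneralLinearGroup.map intToAdele r * k' by
      rw [mul_inv_cancel_left], mul_assoc]
  have h2 := hfix k' hnear g (Finset.mem_singleton_self g)
  exact (congrArg (Matrix.GeneralLinearGroup.map intToAdele r • ·) h2).symm

end FermatAgent.LT.CO

end
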