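import Mathlib
import Fermat.Agent.LT.Descent.Kernel.CosetOp.Basic
import Fermat.Agent.LT.Descent.Kernel.CosetOp.Local
import Fermat.Agent.LT.MultOne.Coeff

set_option autoImplicit false

/-!
# Sums of right translations over families permuted by the level group
-/

noncomputable section

open NumberField IsDedekindDomain WithZero
open scoped ComplexConjugate

namespace FermatAgent.LT.CO

variable {L : Type*} [Field L] [NumberField L] {𝔫 : Ideal (𝓞 L)}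

/-- A finite family of adelic matrices whose cosets are permuted by the congruence subgroup. -/
structure CosetFam (𝔫 : Ideal (𝓞 L)) {ι : Type*} (k : ι → GAf L) : Prop where
  stable : ∀ u ∈ congrSubgroup 𝔫, ∀ i, ∃ j, (k j)⁻¹ * u * k i ∈ congrSubgroup 𝔫
  inj : ∀ i j, (k i)⁻¹ * k j ∈ congrSubgroup 𝔫 → i = j

theorem CosetFam.sum_eq {ι : Type*} [Fintype ι] {k : ι → GAf L} (hk : CosetFam 𝔫 k)
    (f : Cosets 𝔫 → ℂ) (g : GAf L) {w : GAf L} (hw : w ∈ levelGroup 𝔫) :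
    ∑ i, f ((g * w * k i : GAf L) : Cosets 𝔫) = ∑ i, f ((g * k i : GAf L) : Cosets 𝔫) := by
  obtain ⟨u, hu, z, rfl⟩ := mem_levelGroup_iff.mp hw
  choose σ hσ using hk.stable u hu
  have hinj : Function.Injective σ := fun i i' h => hk.inj i i' (by
    have h1 := mul_mem (inv_mem (hσ i)) (h ▸ hσ i')
    rwa [show (k i)⁻¹ * k i' = ((k (σ i))⁻¹ * u * k i)⁻¹ * ((k (σ i))⁻¹ * u * k i') by group])
  refine Fintype.sum_equiv (Equiv.ofBijective σ hinj.bijective_of_finite) _ _ fun i => ?_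
  rw [Equiv.ofBijective_apply, mul_assoc g, mul_assoc u, scalar_commute, ← mul_assoc, ← mul_assoc,
    mk_mul_scalar]
  refine congrArg f (mk_eq_of_inv_mul ?_).symm
  rw [show (g * k (σ i))⁻¹ * (g * u * k i) = (k (σ i))⁻¹ * u * k i by group]
  exact hσ i

theorem sum_rightOp_mk {ι : Type*} [Fintype ι] {k : ι → GAf L} (hk : CosetFam 𝔫 k)
    (f : Cosets 𝔫 → ℂ) (g : GAf L) :
    (∑ i, rightOp 𝔫 (k i)) f (g : Cosets 𝔫) = ∑ i, f ((g * k i : GAf L) : Cosets 𝔫) := by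
  obtain ⟨w, hw⟩ := QuotientGroup.mk_out_eq_mul (levelGroup 𝔫) g
  simp only [LinearMap.sum_apply, Finset.sum_apply, rightOp, LinearMap.coe_mk, AddHom.coe_mk, hw]
  exact hk.sum_eq f g w.2

theorem finRow_rightOp (k : GAf L) : FinRow (rightOp 𝔫 k) := fun a =>
  ⟨{((a.out * k : GAf L) : Cosets 𝔫)}, 1, fun f => by simp [rightOp]⟩

theorem isCosetOp_of_finRow (h𝔫 : 𝔫 ≠ ⊥) {T : Module.End ℂ (Cosets 𝔫 → ℂ)} (hT : Equiv' T)
    (hF : FinRow T) : IsCosetOp T := by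
  refine ⟨hT, hF.row, fun b => ?_, hF.expand⟩
  set o : Cosets 𝔫 := ((1 : GAf L) : Cosets 𝔫) with ho
  have horb := fun b0 : Cosets 𝔫 => finite_level_orbit h𝔫 ((b0.out⁻¹ : GAf L) : Cosets 𝔫)
  refine ((hF.row o).biUnion fun b0 _ => (horb b0).image fun q => b.out • q).subset fun a ha => ?_
  obtain ⟨g, rfl⟩ := QuotientGroup.mk_surjective a
  have hg : (g : Cosets 𝔫) = g • o := by rw [ho, MulAction.Quotient.smul_mk, smul_eq_mul, mul_one]
  set b0 : Cosets 𝔫 := g⁻¹ • b with hb0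
  have h0 : finKer T o b0 ≠ 0 := by
    rw [← finKer_smul' hT g, hb0, smul_inv_smul, ← hg]
    exact ha
  have hmem : b.out⁻¹ * (g * b0.out) ∈ levelGroup 𝔫 := by
    refine QuotientGroup.eq.mp ?_
    rw [show ((g * b0.out : GAf L) : Cosets 𝔫) = g • b0 by
      rw [← smul_eq_mul, ← MulAction.Quotient.smul_mk, QuotientGroup.out_eq'], hb0, smul_inv_smul,
      QuotientGroup.out_eq']
  refine Set.mem_biUnion (x := b0) h0 ⟨(b.out⁻¹ * (g * b0.out)) • ((b0.out⁻¹ : GAf L) : Cosets 𝔫),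
    ⟨⟨_, hmem⟩, rfl⟩, ?_⟩
  simp only [MulAction.Quotient.smul_mk, smul_eq_mul]
  exact congrArg QuotientGroup.mk (by group)

theorem isCosetOp_sum_rightOp (h𝔫 : 𝔫 ≠ ⊥) {ι : Type*} [Fintype ι] {k : ι → GAf L}
    (hk : CosetFam 𝔫 k) : IsCosetOp (∑ i, rightOp 𝔫 (k i)) := by
  refine isCosetOp_of_finRow h𝔫 (fun g f q => ?_) (finRow_sum _ _ fun i _ => finRow_rightOp _)
  obtain ⟨h, rfl⟩ := QuotientGroup.mk_surjective q
  rw [MulAction.Quotient.smul_mk, smul_eq_mul, sum_rightOp_mk hk, sum_rightOp_mk hk]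
  simp only [MulAction.Quotient.smul_mk, smul_eq_mul, mul_assoc]

variable {v : HeightOneSpectrum (𝓞 L)}

theorem conj_atPlace_mem (h𝔫 : 𝔫 ≠ ⊥) {u : GAf L} (hu : u ∈ congrSubgroup 𝔫)
    {M M' : GL (Fin 2) (v.adicCompletion L)}
    (h : M'⁻¹ * locMat v u * M ∈ locCongr v (lvl 𝔫 v)) :
    (atPlace v M')⁻¹ * u * atPlace v M ∈ congrSubgroup 𝔫 := by
  refine (mem_congr_iff h𝔫).mpr fun w => ?_
  rw [map_mul, map_mul, map_inv]
  rcases eq_or_ne w v with rfl | hw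
  · rwa [locMat_atPlace_self, locMat_atPlace_self]
  · rw [locMat_atPlace_ne M hw, locMat_atPlace_ne M' hw, inv_one, one_mul, mul_one]
    exact (mem_congr_iff h𝔫).mp hu w

theorem atPlace_mem_congr (h𝔫 : 𝔫 ≠ ⊥) {M : GL (Fin 2) (v.adicCompletion L)}
    (h : M ∈ locCongr v (lvl 𝔫 v)) : atPlace v M ∈ congrSubgroup 𝔫 := by
  simpa using conj_atPlace_mem h𝔫 (one_mem _) (M := M) (M' := 1) (by simpa using h)

theorem atPlace_scalar (c : (v.adicCompletion L)ˣ) :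
    atPlace v (Matrix.GeneralLinearGroup.scalar (Fin 2) c) =
      Matrix.GeneralLinearGroup.scalar (Fin 2) (ideleAt v c) := by
  refine ext_locMat fun w => Units.ext (Matrix.ext fun i j => ?_)
  rw [locMat_apply (g := Matrix.GeneralLinearGroup.scalar (Fin 2) (ideleAt v c))]
  rcases eq_or_ne w v with rfl | hw
  · rw [locMat_atPlace_self]
    fin_cases i <;> fin_cases j <;> simp [ideleAt_self, adele_zero_apply]
  · rw [locMat_atPlace_ne _ hw]
    fin_cases i <;> fin_cases j <;> simp [ideleAt_of_ne _ hw, adele_zero_apply]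

theorem cosetFam_single (h𝔫 : 𝔫 ≠ ⊥) {M : GL (Fin 2) (v.adicCompletion L)} (hM : M ∈ locCongr v 0) :
    CosetFam 𝔫 fun _ : Unit => atPlace v M :=
  ⟨fun u hu _ => ⟨(), conj_atPlace_mem h𝔫 hu (by
    simpa using conj_mem_locCongr (inv_mem hM) ((mem_congr_iff h𝔫).mp hu v))⟩, fun _ _ _ => rfl⟩

variable (𝔫 v) in
/-- Right translation by a matrix at `v`. -/
abbrev locR (M : GL (Fin 2) (v.adicCompletion L)) : Module.End ℂ (Cosets 𝔫 → ℂ) :=
  rightOp 𝔫 (atPlace v M)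

theorem locR_mk (h𝔫 : 𝔫 ≠ ⊥) {M : GL (Fin 2) (v.adicCompletion L)} (hM : M ∈ locCongr v 0)
    (f : Cosets 𝔫 → ℂ) (g : GAf L) :
    locR 𝔫 v M f (g : Cosets 𝔫) = f ((g * atPlace v M : GAf L) : Cosets 𝔫) := by
  simpa using sum_rightOp_mk (cosetFam_single h𝔫 hM) f g

theorem isCosetOp_locR (h𝔫 : 𝔫 ≠ ⊥) {M : GL (Fin 2) (v.adicCompletion L)}
    (hM : M ∈ locCongr v 0) : IsCosetOp (locR 𝔫 v M) := by
  simpa using isCosetOp_sum_rightOp h𝔫 (cosetFam_single h𝔫 hM)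

theorem locR_mul (h𝔫 : 𝔫 ≠ ⊥) {M N : GL (Fin 2) (v.adicCompletion L)} (hM : M ∈ locCongr v 0)
    (hN : N ∈ locCongr v 0) : locR 𝔫 v M * locR 𝔫 v N = locR 𝔫 v (M * N) := by
  refine LinearMap.ext fun f => funext fun q => ?_
  obtain ⟨g, rfl⟩ := QuotientGroup.mk_surjective q
  rw [Module.End.mul_apply, locR_mk h𝔫 hM, locR_mk h𝔫 hN, locR_mk h𝔫 (mul_mem hM hN), map_mul,
    mul_assoc]

theorem locR_one (h𝔫 : 𝔫 ≠ ⊥) : locR 𝔫 v 1 = 1 := by
  refine LinearMap.ext fun f => funext fun q => ?_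
  obtain ⟨g, rfl⟩ := QuotientGroup.mk_surjective q
  rw [locR_mk h𝔫 (one_mem _), map_one, mul_one]
  rfl

theorem locR_congr (h𝔫 : 𝔫 ≠ ⊥) {M N : GL (Fin 2) (v.adicCompletion L)} (hM : M ∈ locCongr v 0)
    (hN : N ∈ locCongr v 0) (h : SmallM v (lvl 𝔫 v) (N.val - M.val)) :
    locR 𝔫 v M = locR 𝔫 v N := by
  refine LinearMap.ext fun f => funext fun q => ?_
  obtain ⟨g, rfl⟩ := QuotientGroup.mk_surjective q
  rw [locR_mk h𝔫 hM, locR_mk h𝔫 hN]
  refine congrArg f (mk_eq_of_inv_mul ?_)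
  rw [show (g * atPlace v M)⁻¹ * (g * atPlace v N) = (atPlace v M)⁻¹ * atPlace v N by group,
    ← map_inv, ← map_mul]
  exact atPlace_mem_congr h𝔫 (inv_mul_mem_locCongr hM hN h)

theorem locR_scalar (h𝔫 : 𝔫 ≠ ⊥) (c : (v.adicCompletion L)ˣ)
    (hc : Matrix.GeneralLinearGroup.scalar (Fin 2) c ∈ locCongr v 0) :
    locR 𝔫 v (Matrix.GeneralLinearGroup.scalar (Fin 2) c) = 1 := by
  refine LinearMap.ext fun f => funext fun q => ?_
  obtain ⟨g, rfl⟩ := QuotientGroup.mk_surjective q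
  rw [locR_mk h𝔫 hc, atPlace_scalar, mk_mul_scalar]
  rfl

open Classical in
theorem finKer_locR_inv (h𝔫 : 𝔫 ≠ ⊥) {M : GL (Fin 2) (v.adicCompletion L)} (hM : M ∈ locCongr v 0)
    (a b : Cosets 𝔫) : conj (finKer (locR 𝔫 v M) a b) = finKer (locR 𝔫 v M⁻¹) b a := by
  obtain ⟨g, rfl⟩ := QuotientGroup.mk_surjective a
  obtain ⟨h, rfl⟩ := QuotientGroup.mk_surjective b
  simp only [finKer, locR_mk h𝔫 hM, locR_mk h𝔫 (inv_mem hM), Pi.single_apply]
  have key : ∀ (N : GL (Fin 2) (v.adicCompletion L)), N ∈ locCongr v 0 → ∀ x y : GAf L,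
      ((x * atPlace v N : GAf L) : Cosets 𝔫) = (y : Cosets 𝔫) →
      ((y * atPlace v N⁻¹ : GAf L) : Cosets 𝔫) = (x : Cosets 𝔫) := by
    intro N hN x y e
    have e1 : rightOp 𝔫 (atPlace v N⁻¹) (Pi.single (x : Cosets 𝔫) 1)
        ((x * atPlace v N : GAf L) : Cosets 𝔫) = 1 := by
      rw [locR_mk h𝔫 (inv_mem hN), mul_assoc, ← map_mul, mul_inv_cancel, map_one, mul_one,
        Pi.single_eq_same]
    rw [e, locR_mk h𝔫 (inv_mem hN), Pi.single_apply] at e1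
    by_contra hne
    rw [if_neg hne] at e1
    exact zero_ne_one e1
  by_cases e : ((g * atPlace v M : GAf L) : Cosets 𝔫) = (h : Cosets 𝔫)
  · rw [if_pos e, if_pos (key M hM g h e), map_one]
  · rw [if_neg e, if_neg (fun e' => e (by simpa using key M⁻¹ (inv_mem hM) h g e')), map_zero]

end FermatAgent.LT.CO

end
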