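import Mathlib
import Fermat.Agent.LT.Descent.Kernel.CosetOp.Right

set_option autoImplicit false
set_option linter.unusedSectionVars false

/-!
# The Hecke operator on the cosets
-/

noncomputable section

open NumberField IsDedekindDomain WithZero
open scoped ComplexConjugate

namespace FermatAgent.LT.CO

variable {L : Type*} [Field L] [NumberField L] {𝔫 : Ideal (𝓞 L)}
  (v : HeightOneSpectrum (𝓞 L))

/-- The chosen representative of a residue class. -/
def resRep (b : 𝓞 L ⧸ v.asIdeal) : 𝓞 L :=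
  Function.surjInv (Ideal.Quotient.mk_surjective (I := v.asIdeal)) b

theorem mk_resRep (b : 𝓞 L ⧸ v.asIdeal) : Ideal.Quotient.mk v.asIdeal (resRep v b) = b :=
  Function.surjInv_eq _ b

/-- The representatives of the Hecke operator. -/
def hMat : Option (𝓞 L ⧸ v.asIdeal) → GL (Fin 2) (v.adicCompletion L)
  | none => upperTri 1 0 (piLoc v)
  | some b => upperTri (piLoc v) (loc v ((resRep v b : 𝓞 L) : L)) 1

/-- Integral with determinant a uniformiser. -/
def IntDet (M : GL (Fin 2) (v.adicCompletion L)) : Prop :=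
  SmallM v 0 M.val ∧ Valued.v M.val.det = exp (-1 : ℤ)

variable {v}

theorem valued_int_le_one (x : 𝓞 L) : Valued.v (loc v (x : L)) ≤ 1 := by
  rw [valued_loc, HeightOneSpectrum.valuation_of_algebraMap]
  exact v.intValuation_le_one x

theorem mk_eq_mk_iff (x y : 𝓞 L) :
    Ideal.Quotient.mk v.asIdeal x = Ideal.Quotient.mk v.asIdeal y ↔
      Valued.v (loc v (x : L) - loc v (y : L)) ≤ exp (-1 : ℤ) := by
  rw [Ideal.Quotient.eq, ← map_sub,
    show (x : L) - (y : L) = ((x - y : 𝓞 L) : L) from (map_sub (algebraMap (𝓞 L) L) x y).symm,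
    valued_loc, HeightOneSpectrum.valuation_of_algebraMap,
    show (-1 : ℤ) = -((1 : ℕ) : ℤ) from rfl, v.intValuation_le_pow_iff_mem, pow_one]

theorem valued_piLoc : Valued.v ((piLoc v : (v.adicCompletion L)ˣ) : v.adicCompletion L) =
    exp (-1 : ℤ) := valued_uniformizer v

theorem valued_piLoc_le : Valued.v ((piLoc v : (v.adicCompletion L)ˣ) : v.adicCompletion L) ≤ 1 := by
  rw [valued_piLoc, ← exp_zero, exp_le_exp]
  norm_num

theorem intDet_hMat (i : Option (𝓞 L ⧸ v.asIdeal)) : IntDet v (hMat v i) := by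
  constructor
  · refine smallM_of_le_one fun a b => ?_
    cases i <;> fin_cases a <;> fin_cases b <;>
      simp [hMat, upperTri, valued_piLoc_le, valued_int_le_one]
  · cases i <;> simp [hMat, upperTri, Matrix.det_fin_two, valued_piLoc]

theorem IntDet.mul_left {u M : GL (Fin 2) (v.adicCompletion L)} (hu : u ∈ locCongr v 0)
    (hM : IntDet v M) : IntDet v (u * M) := by
  refine ⟨?_, ?_⟩
  · simpa using (smallM_of_mem hu).mul hM.1
  · rw [Units.val_mul, Matrix.det_mul, map_mul, valued_det_eq_one hu, one_mul, hM.2]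

theorem valued_div_pi {x : v.adicCompletion L} (hx : Valued.v x ≤ exp (-1 : ℤ)) :
    Valued.v ((((piLoc v)⁻¹ : (v.adicCompletion L)ˣ) : v.adicCompletion L) * x) ≤ 1 := by
  rw [map_mul, Units.val_inv_eq_inv_val, map_inv₀, valued_piLoc, ← exp_neg, neg_neg]
  refine (mul_le_mul_right hx _).trans ?_
  rw [← exp_add]
  simp

theorem exists_hMat {M : GL (Fin 2) (v.adicCompletion L)} (hM : IntDet v M) :
    ∃ i, (hMat v i)⁻¹ * M ∈ locCongr v 0 := by
  suffices h : ∃ i, SmallM v 0 ((hMat v i)⁻¹ * M).val by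
    obtain ⟨i, hi⟩ := h
    refine ⟨i, mem_locCongr_zero_of_det hi ?_⟩
    have h1 : Valued.v (hMat v i).val.det * Valued.v ((hMat v i)⁻¹ * M).val.det = exp (-1 : ℤ) := by
      rw [← map_mul, ← Matrix.det_mul, ← Units.val_mul, mul_inv_cancel_left, hM.2]
    rw [(intDet_hMat i).2] at h1
    exact mul_left_cancel₀ exp_ne_zero (h1.trans (mul_one _).symm)
  obtain ⟨hint, hdet⟩ := hM
  by_cases hrow : ∃ j, Valued.v (M.val 1 j) = 1
  · obtain ⟨j, hj⟩ := hrow
    have hne : M.val 1 j ≠ 0 := fun h0 => by rw [h0, map_zero] at hj; exact zero_ne_one hj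
    have hq : Valued.v (M.val 0 j / M.val 1 j) ≤ 1 := by
      rw [map_div₀, hj, div_one]; exact hint.le_one 0 j
    obtain ⟨x, hx⟩ := exists_int_close v hq 1
    set y := loc v ((resRep v (Ideal.Quotient.mk v.asIdeal x) : 𝓞 L) : L) with hy
    have hqy : Valued.v (M.val 0 j / M.val 1 j - y) ≤ exp (-1 : ℤ) := by
      rw [show M.val 0 j / M.val 1 j - y =
        (M.val 0 j / M.val 1 j - loc v (x : L)) + (loc v (x : L) - y) by ring]
      exact (Valuation.map_add _ _ _).trans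
        (max_le (by simpa using hx) ((mk_eq_mk_iff _ _).mp (mk_resRep v _).symm))
    have hcol : ∀ k, Valued.v (M.val 0 k - y * M.val 1 k) ≤ exp (-1 : ℤ) := by
      intro k
      have hd : Valued.v (M.val 0 j * M.val 1 k - M.val 0 k * M.val 1 j) ≤ exp (-1 : ℤ) := by
        rw [Matrix.det_fin_two] at hdet
        fin_cases j <;> fin_cases k
        · simp
        · exact hdet.le
        · rw [Valuation.map_sub_swap]; exact hdet.le
        · simp
      have e : M.val 1 j * (M.val 0 k - y * M.val 1 k) =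
          M.val 1 k * (M.val 1 j * (M.val 0 j / M.val 1 j - y)) -
            (M.val 0 j * M.val 1 k - M.val 0 k * M.val 1 j) := by
        field_simp
        ring
      have h2 := congrArg Valued.v e
      rw [map_mul, hj, one_mul] at h2
      rw [h2]
      refine (Valuation.map_sub _ _ _).trans (max_le ?_ hd)
      rw [map_mul, map_mul, hj, one_mul]
      exact (mul_le_mul' (hint.le_one 1 k) hqy).trans_eq (one_mul _)
    refine ⟨some (Ideal.Quotient.mk v.asIdeal x), smallM_of_le_one fun a k => ?_⟩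
    rw [hMat, ← hy]
    fin_cases a
    · have := valued_div_pi (hcol k)
      simpa [upperTri, Units.inv_mk, Matrix.mul_apply, Fin.sum_univ_two, mul_sub, ← sub_eq_add_neg,
        mul_assoc, -Matrix.coe_units_inv] using this
    · simpa [upperTri, Units.inv_mk, Matrix.mul_apply, Fin.sum_univ_two,
        -Matrix.coe_units_inv] using hint.le_one 1 k
  · push Not at hrow
    have hrow' : ∀ j, Valued.v (M.val 1 j) ≤ exp (-1 : ℤ) := fun j => by
      rcases eq_or_ne (Valued.v (M.val 1 j)) 0 with h0 | h0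
      · rw [h0]; exact zero_le
      · have h1 := lt_of_le_of_ne (hint.le_one 1 j) (hrow j)
        rw [← exp_log h0, ← exp_zero, exp_lt_exp] at h1
        rw [← exp_log h0, exp_le_exp]
        omega
    refine ⟨none, smallM_of_le_one fun a k => ?_⟩
    rw [hMat]
    fin_cases a
    · simpa [upperTri, Units.inv_mk, Matrix.mul_apply, Fin.sum_univ_two,
        -Matrix.coe_units_inv] using hint.le_one 0 k
    · have := valued_div_pi (hrow' k)
      simpa [upperTri, Units.inv_mk, Matrix.mul_apply, Fin.sum_univ_two, -Matrix.coe_units_inv] using this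

theorem hMat_inj (i j : Option (𝓞 L ⧸ v.asIdeal)) (h : (hMat v i)⁻¹ * hMat v j ∈ locCongr v 0) :
    i = j := by
  have h0 := smallM_of_mem h
  have hnot : ¬ Valued.v ((((piLoc v)⁻¹ : (v.adicCompletion L)ˣ) : v.adicCompletion L)) ≤ 1 := by
    rw [Units.val_inv_eq_inv_val, map_inv₀, valued_piLoc, ← exp_neg, ← exp_zero, exp_le_exp]
    norm_num
  rcases i with _ | b <;> rcases j with _ | c
  · rfl
  · refine absurd ?_ hnot
    simpa [hMat, upperTri, Units.inv_mk, Matrix.mul_apply, Fin.sum_univ_two,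
      -Matrix.coe_units_inv, -Units.val_inv_eq_inv_val] using h0.le_one 1 1
  · refine absurd ?_ hnot
    simpa [hMat, upperTri, Units.inv_mk, Matrix.mul_apply, Fin.sum_univ_two,
      -Matrix.coe_units_inv, -Units.val_inv_eq_inv_val] using h0.le_one 0 0
  · refine congrArg some ?_
    rw [← mk_resRep v b, ← mk_resRep v c]
    refine ((mk_eq_mk_iff _ _).mpr ?_).symm
    have h1 := h0.le_one 0 1
    rw [hMat, hMat, show ((upperTri (piLoc v) (loc v ((resRep v b : 𝓞 L) : L)) 1)⁻¹ *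
      upperTri (piLoc v) (loc v ((resRep v c : 𝓞 L) : L)) 1).val 0 1 =
      (((piLoc v)⁻¹ : (v.adicCompletion L)ˣ) : v.adicCompletion L) *
        (loc v ((resRep v c : 𝓞 L) : L) - loc v ((resRep v b : 𝓞 L) : L)) by
      simp [upperTri, Units.inv_mk, Matrix.mul_apply, Fin.sum_univ_two, -Matrix.coe_units_inv,
        -Units.val_inv_eq_inv_val]
      ring, map_mul, Units.val_inv_eq_inv_val, map_inv₀, valued_piLoc] at h1
    rwa [inv_mul_le_iff₀ (zero_lt_iff.mpr exp_ne_zero), mul_one] at h1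

theorem cosetFam_hMat (h𝔫 : 𝔫 ≠ ⊥) (hv : ¬ 𝔫 ≤ v.asIdeal) :
    CosetFam 𝔫 fun i => atPlace v (hMat v i) := by
  have hl := lvl_eq_zero h𝔫 hv
  refine ⟨fun u hu i => ?_, fun i j h => hMat_inj i j ?_⟩
  · have hu' := (mem_congr_iff h𝔫).mp hu v
    rw [hl] at hu'
    obtain ⟨j, hj⟩ := exists_hMat ((intDet_hMat i).mul_left hu')
    refine ⟨j, conj_atPlace_mem h𝔫 hu ?_⟩
    rwa [hl, mul_assoc]
  · have h1 := (mem_congr_iff h𝔫).mp h v
    rwa [hl, map_mul, map_inv, locMat_atPlace_self, locMat_atPlace_self] at h1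

theorem heckeOp_eq [Fintype (𝓞 L ⧸ v.asIdeal)] :
    heckeOp 𝔫 v = ∑ i, rightOp 𝔫 (atPlace v (hMat v i)) := by
  rw [heckeOp, finsum_eq_sum_of_fintype, Fintype.sum_option, add_comm]
  rfl

theorem heckeOp_apply [Fintype (𝓞 L ⧸ v.asIdeal)] (h𝔫 : 𝔫 ≠ ⊥) (hv : ¬ 𝔫 ≤ v.asIdeal)
    (f : Cosets 𝔫 → ℂ) (g : GAf L) :
    heckeOp 𝔫 v f (g : Cosets 𝔫) =
      ∑ i, f ((g * atPlace v (hMat v i) : GAf L) : Cosets 𝔫) := by
  rw [heckeOp_eq, sum_rightOp_mk (cosetFam_hMat h𝔫 hv)]

theorem heckeOp_family [Fintype (𝓞 L ⧸ v.asIdeal)] (h𝔫 : 𝔫 ≠ ⊥) (hv : ¬ 𝔫 ≤ v.asIdeal)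
    {ι : Type*} [Fintype ι] (M : ι → GL (Fin 2) (v.adicCompletion L)) (hint : ∀ i, IntDet v (M i))
    (hinj : ∀ i j, (M i)⁻¹ * M j ∈ locCongr v 0 → i = j)
    (hcard : Fintype.card ι = Fintype.card (Option (𝓞 L ⧸ v.asIdeal)))
    (f : Cosets 𝔫 → ℂ) (g : GAf L) :
    heckeOp 𝔫 v f (g : Cosets 𝔫) = ∑ i, f ((g * atPlace v (M i) : GAf L) : Cosets 𝔫) := by
  rw [heckeOp_apply h𝔫 hv]
  choose φ hφ using fun i => exists_hMat (hint i)
  have hφi : Function.Injective φ := fun i j h => hinj i j (by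
    have h1 := mul_mem (inv_mem (hφ i)) (h ▸ hφ j)
    rwa [show (M i)⁻¹ * M j = ((hMat v (φ i))⁻¹ * M i)⁻¹ * ((hMat v (φ i))⁻¹ * M j) by group])
  symm
  refine Fintype.sum_equiv (Equiv.ofBijective φ
    ((Fintype.bijective_iff_injective_and_card φ).mpr ⟨hφi, hcard⟩)) _ _ fun i => ?_
  rw [Equiv.ofBijective_apply]
  refine congrArg f (mk_eq_of_inv_mul ?_).symm
  rw [show (g * atPlace v (hMat v (φ i)))⁻¹ * (g * atPlace v (M i)) =
    (atPlace v (hMat v (φ i)))⁻¹ * atPlace v (M i) by group, ← map_inv, ← map_mul]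
  exact atPlace_mem_congr h𝔫 (by rw [lvl_eq_zero h𝔫 hv]; exact hφ i)

theorem _root_.FermatAgent.LT.isCosetOp_heckeOp (h𝔫 : 𝔫 ≠ ⊥) (hv : ¬ 𝔫 ≤ v.asIdeal) :
    IsCosetOp (heckeOp 𝔫 v) := by
  have : Finite (𝓞 L ⧸ v.asIdeal) := Ideal.finiteQuotientOfFreeOfNeBot _ v.ne_bot
  let _ := Fintype.ofFinite (𝓞 L ⧸ v.asIdeal)
  rw [heckeOp_eq]
  exact isCosetOp_sum_rightOp h𝔫 (cosetFam_hMat h𝔫 hv)

theorem hMat_mk_inj (h𝔫 : 𝔫 ≠ ⊥) (hv : ¬ 𝔫 ≤ v.asIdeal) (g : GAf L)
    {i j : Option (𝓞 L ⧸ v.asIdeal)}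
    (h : ((g * atPlace v (hMat v i) : GAf L) : Cosets 𝔫) =
      ((g * atPlace v (hMat v j) : GAf L) : Cosets 𝔫)) : i = j := by
  refine hMat_inj i j ?_
  have hm := QuotientGroup.eq.mp h
  rw [show (g * atPlace v (hMat v i))⁻¹ * (g * atPlace v (hMat v j)) =
    (atPlace v (hMat v i))⁻¹ * atPlace v (hMat v j) by group, ← map_inv, ← map_mul] at hm
  obtain ⟨u, hu, z, hz⟩ := mem_levelGroup_iff.mp hm
  have hu' := (mem_congr_iff h𝔫).mp hu v
  rw [lvl_eq_zero h𝔫 hv] at hu'
  have e := congrArg (locMat v) hz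
  rw [locMat_atPlace_self, map_mul] at e
  have hd := congrArg (fun M : GL (Fin 2) (v.adicCompletion L) => Valued.v M.val.det) e
  simp only [Units.val_mul, Matrix.det_mul, map_mul] at hd
  have hdi : Valued.v ((hMat v i)⁻¹).val.det * exp (-1 : ℤ) = 1 := by
    rw [← (intDet_hMat i).2, ← map_mul, ← Matrix.det_mul, ← Units.val_mul, inv_mul_cancel,
      Units.val_one, Matrix.det_one, map_one]
  rw [(intDet_hMat j).2, hdi, valued_det_eq_one hu', one_mul,
    Matrix.det_fin_two, show (locMat v (Matrix.GeneralLinearGroup.scalar (Fin 2) z)).val 0 0 =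
      (z : Adf L) v by simp [locMat_apply],
    show (locMat v (Matrix.GeneralLinearGroup.scalar (Fin 2) z)).val 1 1 = (z : Adf L) v by
      simp [locMat_apply],
    show (locMat v (Matrix.GeneralLinearGroup.scalar (Fin 2) z)).val 0 1 = 0 by
      simp [locMat_apply, adele_zero_apply],
    zero_mul, sub_zero, map_mul] at hd
  rw [e]
  refine mul_mem hu' (mem_locCongr_zero_of_det (smallM_of_le_one fun a b => ?_) ?_)
  · have hz1 : Valued.v ((z : Adf L) v) ≤ 1 := by
      by_contra hgt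
      exact absurd hd.symm (one_lt_mul'' (not_le.mp hgt) (not_le.mp hgt)).ne'
    fin_cases a <;> fin_cases b <;> simp [locMat_apply, adele_zero_apply, hz1]
  · rw [Matrix.det_fin_two]
    simp [locMat_apply, adele_zero_apply, ← hd]

open Classical in
theorem _root_.FermatAgent.LT.isHermOp_heckeOp (h𝔫 : 𝔫 ≠ ⊥) (hv : ¬ 𝔫 ≤ v.asIdeal) :
    IsHermOp (heckeOp 𝔫 v) := by
  have : Finite (𝓞 L ⧸ v.asIdeal) := Ideal.finiteQuotientOfFreeOfNeBot _ v.ne_bot
  let _ := Fintype.ofFinite (𝓞 L ⧸ v.asIdeal)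
  intro a b
  obtain ⟨g, rfl⟩ := QuotientGroup.mk_surjective a
  obtain ⟨h, rfl⟩ := QuotientGroup.mk_surjective b
  set R : GAf L → GAf L → Prop := fun x y =>
    ∃ i, ((x * atPlace v (hMat v i) : GAf L) : Cosets 𝔫) = (y : Cosets 𝔫)
  have hker : ∀ x y : GAf L, finKer (heckeOp 𝔫 v) (x : Cosets 𝔫) (y : Cosets 𝔫) =
      if R x y then 1 else 0 := by
    intro x y
    rw [finKer, heckeOp_apply h𝔫 hv]
    by_cases hr : R x y
    · obtain ⟨i, hi⟩ := hr
      rw [if_pos ⟨i, hi⟩, Finset.sum_eq_single i (fun j _ hj => Pi.single_eq_of_ne (fun hj' => hj (hMat_mk_inj h𝔫 hv x (hj'.trans hi.symm))) _)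
        (fun hni => absurd (Finset.mem_univ i) hni), hi, Pi.single_eq_same]
    · rw [if_neg hr]
      exact Finset.sum_eq_zero fun i _ => Pi.single_eq_of_ne (fun hi => hr ⟨i, hi⟩) _
  have hsymm : ∀ x y, R x y → R y x := by
    rintro x y ⟨i, hi⟩
    obtain ⟨u, hu, z, hz⟩ := mem_levelGroup_iff.mp (QuotientGroup.eq.mp hi.symm)
    set c := Matrix.GeneralLinearGroup.scalar (Fin 2) (piLoc v)
    set M := c * (hMat v i)⁻¹
    have hM : IntDet v M := by
      have hdet := (intDet_hMat i).2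
      refine ⟨smallM_of_le_one fun a k => ?_, ?_⟩
      · have hpi : Valued.v (((piLoc v : (v.adicCompletion L)ˣ) : v.adicCompletion L) *
            (hMat v i).val.det⁻¹) = 1 := by
          rw [map_mul, map_inv₀, hdet, valued_piLoc, mul_inv_cancel₀ exp_ne_zero]
        rw [Units.val_mul, inv_val_fin_two]
        change Valued.v (((Matrix.diagonal fun _ : Fin 2 =>
          ((piLoc v : (v.adicCompletion L)ˣ) : v.adicCompletion L)) * _ :
            Matrix (Fin 2) (Fin 2) (v.adicCompletion L)) a k) ≤ 1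
        rw [Matrix.diagonal_mul, Matrix.smul_apply, smul_eq_mul, ← mul_assoc, map_mul, hpi, one_mul]
        fin_cases a <;> fin_cases k <;> simpa using (intDet_hMat i).1.le_one _ _
      · have h1 : Valued.v M.val.det * exp (-1 : ℤ) = exp (-1 : ℤ) * exp (-1 : ℤ) := by
          rw [← hdet, ← map_mul, ← Matrix.det_mul, ← Units.val_mul, inv_mul_cancel_right,
            hdet, Matrix.det_fin_two]
          simp [c, valued_piLoc]
        exact mul_right_cancel₀ exp_ne_zero h1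
    have hu' := (mem_congr_iff h𝔫).mp hu v
    rw [lvl_eq_zero h𝔫 hv] at hu'
    obtain ⟨j, hj⟩ := exists_hMat (hM.mul_left hu')
    refine ⟨j, ?_⟩
    have hmem := conj_atPlace_mem h𝔫 hu (M := M) (M' := hMat v j)
      (by rwa [lvl_eq_zero h𝔫 hv, mul_assoc])
    have ek : (atPlace v (hMat v i))⁻¹ =
        atPlace v M * Matrix.GeneralLinearGroup.scalar (Fin 2) (ideleAt v (piLoc v))⁻¹ := by
      rw [← scalar_commute, map_mul, atPlace_scalar, ← mul_assoc, ← map_mul, inv_mul_cancel,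
        map_one, one_mul, map_inv]
    have e1 : x = y * u * atPlace v M *
        Matrix.GeneralLinearGroup.scalar (Fin 2) (z * (ideleAt v (piLoc v))⁻¹) := by
      calc x = y * (u * Matrix.GeneralLinearGroup.scalar (Fin 2) z) * (atPlace v (hMat v i))⁻¹ := by
            rw [← hz]; group
        _ = y * u * (Matrix.GeneralLinearGroup.scalar (Fin 2) z * atPlace v M) *
            Matrix.GeneralLinearGroup.scalar (Fin 2) (ideleAt v (piLoc v))⁻¹ := by
          rw [ek]; simp only [mul_assoc]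
        _ = _ := by rw [scalar_commute z, map_mul (Matrix.GeneralLinearGroup.scalar (Fin 2))]; simp only [mul_assoc]
    rw [e1]
    rw [mk_mul_scalar]
    refine mk_eq_of_inv_mul ?_
    rwa [show (y * atPlace v (hMat v j))⁻¹ * (y * u * atPlace v M) =
      (atPlace v (hMat v j))⁻¹ * u * atPlace v M by group]
  rw [hker, hker]
  by_cases hr : R g h
  · rw [if_pos hr, if_pos (hsymm _ _ hr), map_one]
  · rw [if_neg hr, if_neg (fun hr' => hr (hsymm _ _ hr')), map_zero]

theorem _root_.FermatAgent.LT.commute_heckeOp (h𝔫 : 𝔫 ≠ ⊥) {w : HeightOneSpectrum (𝓞 L)}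
    (hv : ¬ 𝔫 ≤ v.asIdeal)
    (hw : ¬ 𝔫 ≤ w.asIdeal) : Commute (heckeOp 𝔫 v) (heckeOp 𝔫 w) := by
  rcases eq_or_ne v w with rfl | hvw
  · exact Commute.refl _
  have : Finite (𝓞 L ⧸ v.asIdeal) := Ideal.finiteQuotientOfFreeOfNeBot _ v.ne_bot
  let _ := Fintype.ofFinite (𝓞 L ⧸ v.asIdeal)
  have : Finite (𝓞 L ⧸ w.asIdeal) := Ideal.finiteQuotientOfFreeOfNeBot _ w.ne_bot
  let _ := Fintype.ofFinite (𝓞 L ⧸ w.asIdeal)
  refine LinearMap.ext fun f => funext fun q => ?_
  obtain ⟨g, rfl⟩ := QuotientGroup.mk_surjective q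
  rw [Module.End.mul_apply, Module.End.mul_apply]
  simp only [heckeOp_apply h𝔫 hv, heckeOp_apply h𝔫 hw, mul_assoc]
  rw [Finset.sum_comm]
  refine Finset.sum_congr rfl fun j _ => Finset.sum_congr rfl fun i _ => ?_
  rw [(atPlace_commute' hvw _ _).eq]

end FermatAgent.LT.CO

end
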