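import Mathlib

set_option autoImplicit false
set_option linter.unusedSectionVars false

/-!
# Projections to characters and to the four group, in abstract algebras
-/

noncomputable section

namespace FermatAgent.LT.CO

variable {E : Type*} [Ring E] [Algebra ℂ E]

section Char

variable {A : Type*} [AddCommGroup A] [Fintype A] (τ : A → E)
  (hadd : ∀ a b, τ (a + b) = τ a * τ b) (ψ : AddChar A ℂ)

/-- The projection to the character `ψ`. -/
def charProj : E := (Fintype.card A : ℂ)⁻¹ • ∑ a, (ψ a)⁻¹ • τ a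

include hadd

theorem tau_mul_charProj (b : A) : τ b * charProj τ ψ = ψ b • charProj τ ψ := by
  rw [charProj, mul_smul_comm, smul_comm (ψ b), Finset.mul_sum, Finset.smul_sum (r := ψ b)]
  congr 1
  refine Fintype.sum_equiv (Equiv.addLeft b) _ _ fun a => ?_
  rw [Equiv.coe_addLeft, mul_smul_comm, ← hadd, smul_smul, AddChar.map_add_eq_mul, mul_inv_rev,
    mul_comm (ψ a)⁻¹, ← mul_assoc, mul_inv_cancel₀ (ψ.val_isUnit b).ne_zero, one_mul]

theorem commute_charProj {x : E} (hx : ∀ a, Commute x (τ a)) : Commute x (charProj τ ψ) :=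
  (Commute.sum_right _ _ _ fun a _ => (hx a).smul_right _).smul_right _

theorem charProj_idem : charProj τ ψ * charProj τ ψ = charProj τ ψ := by
  conv_lhs => arg 1; rw [charProj]
  rw [smul_mul_assoc, Finset.sum_mul]
  have h : ∀ a, (ψ a)⁻¹ • τ a * charProj τ ψ = charProj τ ψ := fun a => by
    rw [smul_mul_assoc, tau_mul_charProj τ hadd, smul_smul,
      inv_mul_cancel₀ (ψ.val_isUnit a).ne_zero, one_smul]
  simp only [h, Finset.sum_const, Finset.card_univ, ← Nat.cast_smul_eq_nsmul ℂ, smul_smul]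
  rw [inv_mul_cancel₀ (Nat.cast_ne_zero.mpr Fintype.card_ne_zero), one_smul]

theorem sum_mul_tau (b : A) : (∑ a, τ a) * τ b = ∑ a, τ a := by
  rw [Finset.sum_mul]
  exact Fintype.sum_equiv (Equiv.addRight b) _ _ fun a => by rw [Equiv.coe_addRight, hadd]

theorem sum_mul_charProj (hψ : ψ ≠ 1) : (∑ a, τ a) * charProj τ ψ = 0 := by
  classical
  rw [Finset.sum_mul]
  simp only [tau_mul_charProj τ hadd, ← Finset.sum_smul]
  rw [AddChar.sum_eq_ite, if_neg (by rwa [← AddChar.one_eq_zero]), zero_smul]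

theorem smul_charProj_eq {M : Type*} [AddCommGroup M] [Module E M] [Module ℂ M] [IsScalarTower ℂ E M]
    {f : M} (hf : ∀ a, τ a • f = ψ a • f) : charProj τ ψ • f = f := by
  have h : ∀ a, ((ψ a)⁻¹ • τ a) • f = f := fun a => by
    rw [smul_assoc, hf, smul_smul, inv_mul_cancel₀ (ψ.val_isUnit a).ne_zero, one_smul]
  rw [charProj, smul_assoc, Finset.sum_smul]
  simp only [h, Finset.sum_const, Finset.card_univ, ← Nat.cast_smul_eq_nsmul ℂ, smul_smul]
  rw [inv_mul_cancel₀ (Nat.cast_ne_zero.mpr Fintype.card_ne_zero), one_smul]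

end Char

/-- Three involutions forming a four group. -/
structure IsKlein (I J K : E) : Prop where
  ii : I * I = 1
  jj : J * J = 1
  kk : K * K = 1
  ij : I * J = K
  ji : J * I = K
  jk : J * K = I
  kj : K * J = I
  ki : K * I = J
  ik : I * K = J

/-- The projection to the invariants of the four group. -/
def kleinProj (I J K : E) : E := (4 : ℂ)⁻¹ • (1 + I + J + K)

variable {I J K : E}

theorem mul_kleinProj (h : IsKlein I J K) {n : E} (hn : n = 1 ∨ n = I ∨ n = J ∨ n = K) :
    n * kleinProj I J K = kleinProj I J K := by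
  rw [kleinProj, mul_smul_comm]
  congr 1
  rcases hn with rfl | rfl | rfl | rfl
  · rw [one_mul]
  · rw [mul_add, mul_add, mul_add, mul_one, h.ii, h.ij, h.ik]; abel
  · rw [mul_add, mul_add, mul_add, mul_one, h.ji, h.jj, h.jk]; abel
  · rw [mul_add, mul_add, mul_add, mul_one, h.ki, h.kj, h.kk]; abel

theorem kleinProj_idem (h : IsKlein I J K) : kleinProj I J K * kleinProj I J K = kleinProj I J K := by
  conv_lhs => arg 1; rw [kleinProj]
  rw [smul_mul_assoc, add_mul, add_mul, add_mul, one_mul, mul_kleinProj h (Or.inr (Or.inl rfl)),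
    mul_kleinProj h (Or.inr (Or.inr (Or.inl rfl))), mul_kleinProj h (Or.inr (Or.inr (Or.inr rfl)))]
  rw [show ∀ x : E, x + x + x + x = (4 : ℂ) • x from fun x => by
    rw [show (4 : ℂ) = 1 + 1 + 1 + 1 by norm_num, add_smul, add_smul, add_smul, one_smul],
    smul_smul, inv_mul_cancel₀ (by norm_num), one_smul]

theorem commute_kleinProj_cycle {T : E} (h1 : T * I = J * T) (h2 : T * J = K * T)
    (h3 : T * K = I * T) : Commute T (kleinProj I J K) := by
  rw [Commute, SemiconjBy, kleinProj, mul_smul_comm, smul_mul_assoc]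
  congr 1
  rw [mul_add, mul_add, mul_add, add_mul, add_mul, add_mul, mul_one, one_mul, h1, h2, h3]
  abel

theorem commute_kleinProj_swap {D : E} (h1 : D * I = I * D) (h2 : D * J = K * D)
    (h3 : D * K = J * D) : Commute D (kleinProj I J K) := by
  rw [Commute, SemiconjBy, kleinProj, mul_smul_comm, smul_mul_assoc]
  congr 1
  rw [mul_add, mul_add, mul_add, add_mul, add_mul, add_mul, mul_one, one_mul, h1, h2, h3]
  abel

theorem klein_vec {M : Type*} [AddCommGroup M] [Module ℂ M] {ω : ℂ} (hω : ω ^ 2 + ω + 1 = 0)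
    {f a b c : M} (e2 : f + ω • c + (ω ^ 2) • b = 0) (e3 : c + ω • f + (ω ^ 2) • a = 0)
    (e4 : b + ω • a + (ω ^ 2) • f = 0) : f + a + b + c = (4 : ℂ) • f := by
  have h : f + a + b + c - (4 : ℂ) • f = -(f + ω • c + (ω ^ 2) • b) - (ω ^ 2) • (c + ω • f + (ω ^ 2) • a) -
      ω • (b + ω • a + (ω ^ 2) • f) := by
    match_scalars <;> first
      | ring1
      | linear_combination (2 * (ω - 1)) * hω
      | linear_combination (ω ^ 2 - ω + 1) * hω
      | linear_combination hω
  rw [e2, e3, e4] at h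
  simpa [sub_eq_zero] using h

/-- An eigenvector of `T` whose `T`-average after `I` vanishes is fixed by the four group. -/
theorem kleinProj_smul_eq {M : Type*} [AddCommGroup M] [Module E M] [Module ℂ M]
    [IsScalarTower ℂ E M] (h : IsKlein I J K) {T : E} (h1 : T * I = J * T) (h2 : T * J = K * T)
    {ω : ℂ} (hω : ω ^ 2 + ω + 1 = 0) {f : M} (hf : T • f = ω • f)
    (hS : (1 + T + T * T) • I • f = 0) : kleinProj I J K • f = f := by
  have e1 : I • f + ω • J • f + (ω ^ 2) • K • f = 0 := by
    rw [← hS, add_smul, add_smul, one_smul]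
    have a1 : T • I • f = ω • J • f := by
      rw [← mul_smul, h1, mul_smul, hf, smul_comm]
    have a2 : (T * T) • I • f = (ω ^ 2) • K • f := by
      rw [mul_smul, a1, smul_comm, ← mul_smul T, h2, mul_smul, hf, smul_comm K, smul_smul, sq]
    rw [a1, a2]
  have e2 := congrArg (I • ·) e1
  have e3 := congrArg (J • ·) e1
  have e4 := congrArg (K • ·) e1
  simp only [smul_add, smul_zero, smul_comm I ω, smul_comm I (ω ^ 2), smul_comm J ω,
    smul_comm J (ω ^ 2), smul_comm K ω, smul_comm K (ω ^ 2), ← mul_smul, h.ii, h.jj, h.kk, h.ij,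
    h.ji, h.jk, h.kj, h.ki, h.ik, one_smul] at e2 e3 e4
  rw [kleinProj, smul_assoc, add_smul, add_smul, add_smul, one_smul]
  have h4 := klein_vec hω e2 e3 e4
  rw [h4, smul_smul, inv_mul_cancel₀ (by norm_num), one_smul]

end FermatAgent.LT.CO

end
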