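import Mathlib
import Fermat.Agent.LT.Descent.Kernel.CosetOp.Hecke
import Fermat.Agent.LT.Descent.Kernel.CosetOp.Klein

set_option autoImplicit false
set_option linter.unusedSectionVars false

/-!
# Residual operators at a place of the level
-/

noncomputable section

open NumberField IsDedekindDomain WithZero
open scoped ComplexConjugate

namespace FermatAgent.LT.CO

variable {L : Type*} [Field L] [NumberField L] {𝔫 : Ideal (𝓞 L)}
  {v : HeightOneSpectrum (𝓞 L)}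

variable (v) in
/-- The translation matrix by an integer. -/
def tMat (o : 𝓞 L) : GL (Fin 2) (v.adicCompletion L) := upperTri 1 (loc v (o : L)) 1

theorem transl_eq (o : 𝓞 L) : transl v o = atPlace v (tMat v o) := rfl

theorem tMat_mem (o : 𝓞 L) : tMat v o ∈ locCongr v 0 := by
  refine mem_locCongr_zero_of_det (smallM_of_le_one fun i j => ?_) ?_
  · fin_cases i <;> fin_cases j <;> simp [tMat, upperTri, valued_int_le_one]
  · simp [tMat, upperTri, Matrix.det_fin_two]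

theorem tMat_add (o o' : 𝓞 L) : tMat v (o + o') = tMat v o * tMat v o' := by
  rw [tMat, tMat, tMat, upperTri_mul]
  simp [add_comm]

variable (𝔫 v) in
/-- The operator of a residual translation. -/
def tau (x : 𝓞 L ⧸ v.asIdeal) : Module.End ℂ (Cosets 𝔫 → ℂ) := locR 𝔫 v (tMat v (resRep v x))

section Tau

variable (h𝔫 : 𝔫 ≠ ⊥) (hl : lvl 𝔫 v ≤ 1)
include h𝔫 hl

theorem locR_tMat (o : 𝓞 L) :
    locR 𝔫 v (tMat v o) = tau 𝔫 v (Ideal.Quotient.mk v.asIdeal o) := by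
  refine (locR_congr h𝔫 (tMat_mem _) (tMat_mem _) fun i j => ?_).symm
  have h := (mk_eq_mk_iff (v := v) o _).mp (mk_resRep v (Ideal.Quotient.mk v.asIdeal o)).symm
  refine le_trans ?_ (exp_le_exp.mpr (neg_le_neg (Int.ofNat_le.mpr hl)))
  fin_cases i <;> fin_cases j <;> simp [tMat, upperTri]
  simpa using h

theorem tau_add (x y : 𝓞 L ⧸ v.asIdeal) : tau 𝔫 v (x + y) = tau 𝔫 v x * tau 𝔫 v y := by
  rw [show tau 𝔫 v (x + y) = locR 𝔫 v (tMat v (resRep v x + resRep v y)) by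
      rw [locR_tMat h𝔫 hl, map_add, mk_resRep, mk_resRep],
    tMat_add, tau, tau, locR_mul h𝔫 (tMat_mem _) (tMat_mem _)]

theorem tau_zero : tau 𝔫 v 0 = 1 := by
  rw [← map_zero (Ideal.Quotient.mk v.asIdeal), ← locR_tMat h𝔫 hl,
    show tMat v 0 = 1 by rw [tMat]; simp [upperTri_one], locR_one h𝔫]

theorem finKer_tau_neg (x : 𝓞 L ⧸ v.asIdeal) (a b : Cosets 𝔫) :
    conj (finKer (tau 𝔫 v x) a b) = finKer (tau 𝔫 v (-x)) b a := by
  rw [tau, finKer_locR_inv h𝔫 (tMat_mem _)]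
  have h : tMat v (resRep v x) * tMat v (-resRep v x) = 1 := by
    rw [← tMat_add, add_neg_cancel, tMat]; simp [upperTri_one]
  rw [inv_eq_of_mul_eq_one_right h, locR_tMat h𝔫 hl, map_neg, mk_resRep]

theorem isCosetOp_tau (x : 𝓞 L ⧸ v.asIdeal) : IsCosetOp (tau 𝔫 v x) :=
  isCosetOp_locR h𝔫 (tMat_mem _)

end Tau

theorem isCosetOp_sum {ι : Type*} (h𝔫 : 𝔫 ≠ ⊥) (t : Finset ι)
    (U : ι → Module.End ℂ (Cosets 𝔫 → ℂ)) (h : ∀ i ∈ t, IsCosetOp (U i)) :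
    IsCosetOp (∑ i ∈ t, U i) :=
  Finset.sum_induction _ IsCosetOp (fun _ _ ha hb => IsCosetOp.add ha hb)
    (isCosetOp_of_finRow h𝔫 equiv_zero finRow_zero) h

theorem finKer_sum {ι : Type*} (t : Finset ι) (U : ι → Module.End ℂ (Cosets 𝔫 → ℂ))
    (a b : Cosets 𝔫) : finKer (∑ i ∈ t, U i) a b = ∑ i ∈ t, finKer (U i) a b := by
  simp [finKer, LinearMap.sum_apply, Finset.sum_apply]

theorem finKer_smul_left (c : ℂ) (T : Module.End ℂ (Cosets 𝔫 → ℂ)) (a b : Cosets 𝔫) :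
    finKer (c • T) a b = c * finKer T a b := by simp [finKer]

theorem finKer_add_left (T T' : Module.End ℂ (Cosets 𝔫 → ℂ)) (a b : Cosets 𝔫) :
    finKer (T + T') a b = finKer T a b + finKer T' a b := by simp [finKer]

theorem psiOp_eq [Fintype (𝓞 L ⧸ v.asIdeal)] (ψ : AddChar (𝓞 L ⧸ v.asIdeal) ℂ) :
    psiOp 𝔫 v ψ = charProj (tau 𝔫 v) ψ := by
  rw [psiOp, finsum_eq_sum_of_fintype, Nat.card_eq_fintype_card]
  rfl

theorem isCosetOp_psiOp (h𝔫 : 𝔫 ≠ ⊥) (hl : lvl 𝔫 v ≤ 1) (ψ : AddChar (𝓞 L ⧸ v.asIdeal) ℂ) :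
    IsCosetOp (psiOp 𝔫 v ψ) := by
  have : Finite (𝓞 L ⧸ v.asIdeal) := Ideal.finiteQuotientOfFreeOfNeBot _ v.ne_bot
  let _ := Fintype.ofFinite (𝓞 L ⧸ v.asIdeal)
  rw [psiOp_eq, charProj]
  exact IsCosetOp.smul (isCosetOp_sum h𝔫 _ _ fun x _ =>
    IsCosetOp.smul (isCosetOp_tau h𝔫 hl x) _) _

theorem isHermOp_psiOp (h𝔫 : 𝔫 ≠ ⊥) (hl : lvl 𝔫 v ≤ 1) (ψ : AddChar (𝓞 L ⧸ v.asIdeal) ℂ) :
    IsHermOp (psiOp 𝔫 v ψ) := by
  have : Finite (𝓞 L ⧸ v.asIdeal) := Ideal.finiteQuotientOfFreeOfNeBot _ v.ne_bot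
  let _ := Fintype.ofFinite (𝓞 L ⧸ v.asIdeal)
  intro a b
  simp only [psiOp_eq, charProj, finKer_smul_left, finKer_sum, map_mul, map_sum, map_inv₀,
    Complex.conj_natCast, finKer_tau_neg h𝔫 hl]
  congr 1
  refine Fintype.sum_equiv (Equiv.neg _) _ _ fun x => ?_
  rw [Equiv.neg_apply, AddChar.map_neg_eq_conj]

theorem psiOp_idem (h𝔫 : 𝔫 ≠ ⊥) (hl : lvl 𝔫 v ≤ 1) (ψ : AddChar (𝓞 L ⧸ v.asIdeal) ℂ) :
    psiOp 𝔫 v ψ * psiOp 𝔫 v ψ = psiOp 𝔫 v ψ := by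
  have : Finite (𝓞 L ⧸ v.asIdeal) := Ideal.finiteQuotientOfFreeOfNeBot _ v.ne_bot
  let _ := Fintype.ofFinite (𝓞 L ⧸ v.asIdeal)
  rw [psiOp_eq]
  exact charProj_idem _ (tau_add h𝔫 hl) ψ

/-! ### A place with residue field `𝔽₃` -/

theorem valMinAbs_one_three : (1 : ZMod 3).valMinAbs = 1 := rfl

variable (v) in
/-- The signed lift of a matrix over `𝔽₃`. -/
def liftM (A : Matrix (Fin 2) (Fin 2) (ZMod 3)) : Matrix (Fin 2) (Fin 2) (v.adicCompletion L) :=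
  A.map fun a => ((a.valMinAbs : ℤ) : v.adicCompletion L)

theorem intCast_loc (n : ℤ) : ((n : ℤ) : v.adicCompletion L) = loc v (((n : 𝓞 L)) : L) := by
  simp

theorem det_liftM (A : Matrix (Fin 2) (Fin 2) (ZMod 3)) :
    ∃ n : ℤ, (n : ZMod 3) = A.det ∧ (liftM v A).det = (n : v.adicCompletion L) := by
  refine ⟨(A 0 0).valMinAbs * (A 1 1).valMinAbs - (A 0 1).valMinAbs * (A 1 0).valMinAbs, ?_, ?_⟩
  · simp [Matrix.det_fin_two]
  · simp [liftM, Matrix.det_fin_two]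

theorem det_liftM_ne {A : Matrix (Fin 2) (Fin 2) (ZMod 3)} (hA : A.det ≠ 0) :
    (liftM v A).det ≠ 0 := by
  obtain ⟨n, hn, e⟩ := det_liftM (v := v) A
  rw [e, ← map_intCast (loc v), map_ne_zero, Int.cast_ne_zero]
  intro h0
  rw [h0] at hn
  exact hA (by simpa using hn.symm)

variable (𝔫 v) in
open Classical in
/-- The operator of a matrix over `𝔽₃`. -/
def phi (A : Matrix (Fin 2) (Fin 2) (ZMod 3)) : Module.End ℂ (Cosets 𝔫 → ℂ) :=
  if h : (liftM v A).det ≠ 0 then locR 𝔫 v (Matrix.GeneralLinearGroup.mkOfDetNeZero _ h) else 0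

theorem phi_of_val {A : Matrix (Fin 2) (Fin 2) (ZMod 3)} {M : GL (Fin 2) (v.adicCompletion L)}
    (h : M.val = liftM v A) : phi 𝔫 v A = locR 𝔫 v M := by
  have hd : (liftM v A).det ≠ 0 := by
    rw [← h]
    exact M.isUnit.map (Matrix.detMonoidHom (R := v.adicCompletion L) (n := Fin 2)) |>.ne_zero
  rw [phi, dif_pos hd]
  exact congrArg (locR 𝔫 v) (Units.ext h.symm)

theorem exists_lift {A : Matrix (Fin 2) (Fin 2) (ZMod 3)} (hA : A.det ≠ 0) :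
    ∃ M : GL (Fin 2) (v.adicCompletion L), M.val = liftM v A ∧ phi 𝔫 v A = locR 𝔫 v M := by
  refine ⟨Matrix.GeneralLinearGroup.mkOfDetNeZero _ (det_liftM_ne (v := v) hA), rfl, ?_⟩
  rw [phi, dif_pos (det_liftM_ne hA)]

section Three

variable (h𝔫 : 𝔫 ≠ ⊥) (hl : lvl 𝔫 v ≤ 1) (h3 : (3 : 𝓞 L) ∈ v.asIdeal)

include h3 in
theorem valued_three_mul (k : ℤ) :
    Valued.v ((3 * k : ℤ) : v.adicCompletion L) ≤ exp (-1 : ℤ) := by
  rw [intCast_loc, valued_loc, HeightOneSpectrum.valuation_of_algebraMap,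
    show (-1 : ℤ) = -((1 : ℕ) : ℤ) from rfl, v.intValuation_le_pow_iff_mem, pow_one, Int.cast_mul]
  exact Ideal.mul_mem_right _ _ (by simpa using h3)

include h3 in
theorem valued_lift_det {A : Matrix (Fin 2) (Fin 2) (ZMod 3)} (hA : A.det ≠ 0) :
    Valued.v (liftM v A).det = 1 := by
  obtain ⟨n, hn, e⟩ := det_liftM (v := v) A
  rw [e, intCast_loc, valued_loc, HeightOneSpectrum.valuation_of_algebraMap,
    HeightOneSpectrum.intValuation_eq_one_iff_mem_primeCompl]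
  intro hmem
  have hn3 : ¬ (3 : ℤ) ∣ n := fun hd => hA (by
    rw [← hn]; exact (ZMod.intCast_zmod_eq_zero_iff_dvd n 3).mpr hd)
  obtain ⟨a, b, hab⟩ := (Int.prime_three.coprime_iff_not_dvd.mpr hn3)
  refine v.asIdeal.ne_top_iff_one.mp v.isPrime.ne_top ?_
  have := congrArg (fun z : ℤ => (z : 𝓞 L)) hab
  simp only [Int.cast_add, Int.cast_mul, Int.cast_one] at this
  rw [← this]
  exact add_mem (Ideal.mul_mem_left _ _ (by simpa using h3)) (Ideal.mul_mem_left _ _ hmem)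

theorem smallM_liftM (A : Matrix (Fin 2) (Fin 2) (ZMod 3)) : SmallM v 0 (liftM v A) :=
  smallM_of_le_one fun i j => by
    rw [liftM, Matrix.map_apply, intCast_loc]; exact valued_int_le_one _

include h3 in
theorem lift_mem {A : Matrix (Fin 2) (Fin 2) (ZMod 3)} (hA : A.det ≠ 0)
    {M : GL (Fin 2) (v.adicCompletion L)} (hM : M.val = liftM v A) : M ∈ locCongr v 0 :=
  mem_locCongr_zero_of_det (hM ▸ smallM_liftM A) (hM ▸ valued_lift_det h3 hA)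

include h3 in
theorem bijective_residue (hcard : Nat.card (𝓞 L ⧸ v.asIdeal) = 3) :
    Function.Bijective fun a : ZMod 3 => Ideal.Quotient.mk v.asIdeal ((a.valMinAbs : ℤ) : 𝓞 L) := by
  have : Finite (𝓞 L ⧸ v.asIdeal) := Ideal.finiteQuotientOfFreeOfNeBot _ v.ne_bot
  let _ := Fintype.ofFinite (𝓞 L ⧸ v.asIdeal)
  refine (Fintype.bijective_iff_injective_and_card _).mpr ⟨fun a b e => ?_, ?_⟩
  · by_contra hne
    have hn : ¬ (3 : ℤ) ∣ a.valMinAbs - b.valMinAbs := fun hd => hne (by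
      have := (ZMod.intCast_zmod_eq_zero_iff_dvd _ 3).mpr hd
      simpa [sub_eq_zero] using this)
    obtain ⟨p, q, hpq⟩ := Int.prime_three.coprime_iff_not_dvd.mpr hn
    refine v.asIdeal.ne_top_iff_one.mp v.isPrime.ne_top ?_
    have h1 := congrArg (fun z : ℤ => (z : 𝓞 L)) hpq
    simp only [Int.cast_add, Int.cast_mul, Int.cast_one, Int.cast_sub] at h1
    rw [← h1]
    exact add_mem (Ideal.mul_mem_left _ _ (by simpa using h3))
      (Ideal.mul_mem_left _ _ (Ideal.Quotient.eq.mp e))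
  · rw [ZMod.card, ← Nat.card_eq_fintype_card, hcard]

include h3 in
theorem exists_residue (hcard : Nat.card (𝓞 L ⧸ v.asIdeal) = 3) (x : 𝓞 L) :
    ∃ a : ZMod 3, Ideal.Quotient.mk v.asIdeal ((a.valMinAbs : ℤ) : 𝓞 L) =
      Ideal.Quotient.mk v.asIdeal x :=
  (bijective_residue h3 hcard).2 _

include h𝔫 hl h3

theorem phi_mul {A B : Matrix (Fin 2) (Fin 2) (ZMod 3)} (hA : A.det ≠ 0) (hB : B.det ≠ 0) :
    phi 𝔫 v A * phi 𝔫 v B = phi 𝔫 v (A * B) := by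
  have hAB : (A * B).det ≠ 0 := by rw [Matrix.det_mul]; exact mul_ne_zero hA hB
  obtain ⟨M, hM, eM⟩ := exists_lift (𝔫 := 𝔫) (v := v) hA
  obtain ⟨N, hN, eN⟩ := exists_lift (𝔫 := 𝔫) (v := v) hB
  obtain ⟨P, hP, eP⟩ := exists_lift (𝔫 := 𝔫) (v := v) hAB
  have mM := lift_mem h3 hA hM
  have mN := lift_mem h3 hB hN
  rw [eM, eN, eP, locR_mul h𝔫 mM mN]
  refine locR_congr h𝔫 (mul_mem mM mN) (lift_mem h3 hAB hP) fun i j => ?_
  refine le_trans ?_ (exp_le_exp.mpr (neg_le_neg (Int.ofNat_le.mpr hl)))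
  rw [Units.val_mul, hM, hN, hP]
  have hdiv : (3 : ℤ) ∣ ((A * B) i j).valMinAbs -
      ((A i 0).valMinAbs * (B 0 j).valMinAbs + (A i 1).valMinAbs * (B 1 j).valMinAbs) := by
    refine (ZMod.intCast_zmod_eq_zero_iff_dvd _ 3).mp ?_
    simp [Matrix.mul_apply, Fin.sum_univ_two]
  obtain ⟨k, hk⟩ := hdiv
  refine le_of_eq_of_le (congrArg Valued.v ?_) (valued_three_mul h3 k)
  simp only [Matrix.sub_apply, Matrix.mul_apply, Fin.sum_univ_two, liftM, Matrix.map_apply]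
  rw [← hk]
  simp [Matrix.mul_apply, Fin.sum_univ_two]

theorem phi_one : phi 𝔫 v 1 = 1 := by
  rw [phi_of_val (M := 1) (Matrix.ext fun i j => by fin_cases i <;> fin_cases j <;> simp [liftM, valMinAbs_one_three]),
    locR_one h𝔫]

theorem phi_neg {A : Matrix (Fin 2) (Fin 2) (ZMod 3)} (hA : A.det ≠ 0) :
    phi 𝔫 v (-A) = phi 𝔫 v A := by
  have hc : Matrix.GeneralLinearGroup.scalar (Fin 2) (-1 : (v.adicCompletion L)ˣ) ∈ locCongr v 0 := by
    refine mem_locCongr_zero_of_det (smallM_of_le_one fun i j => ?_) ?_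
    · fin_cases i <;> fin_cases j <;> simp
    · simp
  have h1 : (-1 : Matrix (Fin 2) (Fin 2) (ZMod 3)).det ≠ 0 := by decide
  rw [← neg_one_mul A, ← phi_mul h𝔫 hl h3 h1 hA,
    phi_of_val (M := Matrix.GeneralLinearGroup.scalar (Fin 2) (-1 : (v.adicCompletion L)ˣ))
      (Matrix.ext fun i j => by
        fin_cases i <;> fin_cases j <;> simp [liftM, show (-1 : ZMod 3).valMinAbs = -1 from rfl]),
    locR_scalar h𝔫 _ hc, one_mul]

theorem phi_rel {A B C : Matrix (Fin 2) (Fin 2) (ZMod 3)}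
    (h : A * B = C ∨ A * B = -C) (hA : A.det ≠ 0) (hB : B.det ≠ 0) (hC : C.det ≠ 0) :
    phi 𝔫 v A * phi 𝔫 v B = phi 𝔫 v C := by
  rw [phi_mul h𝔫 hl h3 hA hB]
  rcases h with e | e
  · rw [e]
  · rw [e, phi_neg h𝔫 hl h3 hC]

theorem exists_phi (hcard : Nat.card (𝓞 L ⧸ v.asIdeal) = 3)
    {M : GL (Fin 2) (v.adicCompletion L)} (hM : M ∈ locCongr v 0) :
    ∃ A : Matrix (Fin 2) (Fin 2) (ZMod 3), A.det ≠ 0 ∧ locR 𝔫 v M = phi 𝔫 v A := by
  have : Finite (𝓞 L ⧸ v.asIdeal) := Ideal.finiteQuotientOfFreeOfNeBot _ v.ne_bot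
  let _ := Fintype.ofFinite (𝓞 L ⧸ v.asIdeal)
  have key : ∀ i j, ∃ a : ZMod 3,
      Valued.v (M.val i j - ((a.valMinAbs : ℤ) : v.adicCompletion L)) ≤ exp (-1 : ℤ) := by
    intro i j
    obtain ⟨x, hx⟩ := exists_int_close v ((smallM_of_mem hM).le_one i j) 1
    obtain ⟨a, ha⟩ := exists_residue h3 hcard x
    refine ⟨a, ?_⟩
    rw [intCast_loc, show M.val i j - loc v (((a.valMinAbs : ℤ) : 𝓞 L) : L) =
      (M.val i j - loc v (x : L)) + (loc v (x : L) - loc v (((a.valMinAbs : ℤ) : 𝓞 L) : L)) by ring]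
    exact (Valuation.map_add _ _ _).trans
      (max_le (by simpa using hx) ((mk_eq_mk_iff _ _).mp ha.symm))
  choose A hA using key
  have hdet : (Matrix.of A).det ≠ 0 := by
    intro h0
    obtain ⟨n, hn, e⟩ := det_liftM (v := v) (Matrix.of A)
    rw [h0, ZMod.intCast_zmod_eq_zero_iff_dvd] at hn
    obtain ⟨k, rfl⟩ := hn
    have h1 : Valued.v (M.val.det - (liftM v (Matrix.of A)).det) ≤ exp (-1 : ℤ) := by
      have hm : ∀ p q r s : Fin 2, Valued.v (M.val p q * M.val r s -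
          liftM v (Matrix.of A) p q * liftM v (Matrix.of A) r s) ≤ exp (-1 : ℤ) := fun p q r s => by
        rw [show M.val p q * M.val r s - liftM v (Matrix.of A) p q * liftM v (Matrix.of A) r s =
          M.val p q * (M.val r s - liftM v (Matrix.of A) r s) +
            (M.val p q - liftM v (Matrix.of A) p q) * liftM v (Matrix.of A) r s by ring]
        refine (Valuation.map_add _ _ _).trans (max_le ?_ ?_) <;> rw [map_mul]
        · exact (mul_le_mul' ((smallM_of_mem hM).le_one p q) (hA r s)).trans_eq (one_mul _)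
        · exact (mul_le_mul' (hA p q) ((smallM_liftM _).le_one r s)).trans_eq (mul_one _)
      rw [Matrix.det_fin_two, Matrix.det_fin_two, sub_sub_sub_comm]
      exact (Valuation.map_sub _ _ _).trans (max_le (hm 0 0 1 1) (hm 0 1 1 0))
    rw [e] at h1
    have h2 : Valued.v M.val.det ≤ exp (-1 : ℤ) := by
      rw [show M.val.det = (M.val.det - ((3 * k : ℤ) : v.adicCompletion L)) +
        ((3 * k : ℤ) : v.adicCompletion L) by ring]
      exact (Valuation.map_add _ _ _).trans (max_le h1 (valued_three_mul h3 k))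
    rw [valued_det_eq_one hM, ← exp_zero, exp_le_exp] at h2
    norm_num at h2
  obtain ⟨P, hP, eP⟩ := exists_lift (𝔫 := 𝔫) (v := v) hdet
  refine ⟨_, hdet, (eP ▸ ?_)⟩
  refine locR_congr h𝔫 hM (lift_mem h3 hdet hP) fun i j => ?_
  refine le_trans ?_ (exp_le_exp.mpr (neg_le_neg (Int.ofNat_le.mpr hl)))
  rw [Matrix.sub_apply, hP, Valuation.map_sub_swap]
  exact hA i j

theorem tau_eq_phi (a : ZMod 3) :
    tau 𝔫 v (Ideal.Quotient.mk v.asIdeal ((a.valMinAbs : ℤ) : 𝓞 L)) = phi 𝔫 v !![1, a; 0, 1] := by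
  rw [← locR_tMat h𝔫 hl, phi_of_val (M := tMat v ((a.valMinAbs : ℤ) : 𝓞 L))]
  refine Matrix.ext fun i j => ?_
  fin_cases i <;> fin_cases j <;> simp [liftM, tMat, upperTri, valMinAbs_one_three]

end Three

/-- The four group matrices. -/
def mI : Matrix (Fin 2) (Fin 2) (ZMod 3) := !![0, -1; 1, 0]

/-- The four group matrices. -/
def mJ : Matrix (Fin 2) (Fin 2) (ZMod 3) := !![1, 1; 1, -1]

/-- The four group matrices. -/
def mK : Matrix (Fin 2) (Fin 2) (ZMod 3) := !![1, -1; -1, -1]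

theorem isKlein_phi (h𝔫 : 𝔫 ≠ ⊥) (hl : lvl 𝔫 v ≤ 1) (h3 : (3 : 𝓞 L) ∈ v.asIdeal) :
    IsKlein (phi 𝔫 v mI) (phi 𝔫 v mJ) (phi 𝔫 v mK) := by
  have h1 := phi_one (𝔫 := 𝔫) (v := v) h𝔫 hl h3
  constructor <;> first
    | (rw [phi_rel h𝔫 hl h3 (C := 1) (by decide) (by decide) (by decide) (by decide), h1])
    | exact phi_rel h𝔫 hl h3 (by decide) (by decide) (by decide) (by decide)

theorem v4Op_eq (h𝔫 : 𝔫 ≠ ⊥) : v4Op 𝔫 v = kleinProj (phi 𝔫 v mI) (phi 𝔫 v mJ) (phi 𝔫 v mK) := by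
  have hone : (1 : ZMod 3).valMinAbs = 1 := rfl
  have hneg : (-1 : ZMod 3).valMinAbs = -1 := rfl
  have hv : ∀ (A : Matrix (Fin 2) (Fin 2) (ZMod 3)) (B : Matrix (Fin 2) (Fin 2) (v.adicCompletion L))
      (hB : B.det ≠ 0), B = liftM v A →
      phi 𝔫 v A = rightOp 𝔫 (atPlace v (Matrix.GeneralLinearGroup.mkOfDetNeZero B hB)) :=
    fun A B hB e => phi_of_val (M := Matrix.GeneralLinearGroup.mkOfDetNeZero B hB) e
  rw [v4Op, kleinProj,
    hv mI _ (det_v4_i v) (Matrix.ext fun i j => by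
      fin_cases i <;> fin_cases j <;> simp [liftM, mI, hone, hneg]),
    hv mJ _ (det_v4_j v) (Matrix.ext fun i j => by
      fin_cases i <;> fin_cases j <;> simp [liftM, mJ, hone, hneg]),
    hv mK _ (det_v4_k v) (Matrix.ext fun i j => by
      fin_cases i <;> fin_cases j <;> simp [liftM, mK, hone, hneg]),
    show rightOp 𝔫 (1 : GAf L) = 1 by rw [← map_one (atPlace v)]; exact locR_one h𝔫]

theorem isCosetOp_phi (h𝔫 : 𝔫 ≠ ⊥) (h3 : (3 : 𝓞 L) ∈ v.asIdeal)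
    {A : Matrix (Fin 2) (Fin 2) (ZMod 3)} (hA : A.det ≠ 0) : IsCosetOp (phi 𝔫 v A) := by
  obtain ⟨M, hM, e⟩ := exists_lift (𝔫 := 𝔫) (v := v) hA
  rw [e]
  exact isCosetOp_locR h𝔫 (lift_mem h3 hA hM)

theorem isCosetOp_v4Op (h𝔫 : 𝔫 ≠ ⊥) (h3 : (3 : 𝓞 L) ∈ v.asIdeal) : IsCosetOp (v4Op 𝔫 v) := by
  rw [v4Op_eq h𝔫, kleinProj]
  exact IsCosetOp.smul (IsCosetOp.add (IsCosetOp.add (IsCosetOp.add isCosetOp_one
    (isCosetOp_phi h𝔫 h3 (by decide))) (isCosetOp_phi h𝔫 h3 (by decide)))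
    (isCosetOp_phi h𝔫 h3 (by decide))) _

theorem isHermOp_v4Op (h𝔫 : 𝔫 ≠ ⊥) (hl : lvl 𝔫 v ≤ 1) (h3 : (3 : 𝓞 L) ∈ v.asIdeal) :
    IsHermOp (v4Op 𝔫 v) := by
  intro a b
  have hk := isKlein_phi (𝔫 := 𝔫) h𝔫 hl h3
  have key : ∀ A : Matrix (Fin 2) (Fin 2) (ZMod 3), A.det ≠ 0 → phi 𝔫 v A * phi 𝔫 v A = 1 →
      conj (finKer (phi 𝔫 v A) a b) = finKer (phi 𝔫 v A) b a := by
    intro A hA hsq
    obtain ⟨M, hM, e⟩ := exists_lift (𝔫 := 𝔫) (v := v) hA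
    have mM := lift_mem h3 hA hM
    rw [e, finKer_locR_inv h𝔫 mM]
    rw [e] at hsq
    congr 1
    calc locR 𝔫 v M⁻¹ = locR 𝔫 v M⁻¹ * (locR 𝔫 v M * locR 𝔫 v M) := by rw [hsq, mul_one]
      _ = locR 𝔫 v M := by
        rw [← mul_assoc, locR_mul h𝔫 (inv_mem mM) mM, inv_mul_cancel, locR_one h𝔫, one_mul]
  simp only [v4Op_eq h𝔫, kleinProj, finKer_smul_left, finKer_add_left, map_mul, map_add,
    key mI (by decide) hk.ii, key mJ (by decide) hk.jj, key mK (by decide) hk.kk,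
    hermOp_one a b]
  congr 1
  simp [Complex.conj_ofNat]

theorem v4Op_idem (h𝔫 : 𝔫 ≠ ⊥) (hl : lvl 𝔫 v ≤ 1) (h3 : (3 : 𝓞 L) ∈ v.asIdeal) :
    v4Op 𝔫 v * v4Op 𝔫 v = v4Op 𝔫 v := by
  rw [v4Op_eq h𝔫]
  exact kleinProj_idem (isKlein_phi h𝔫 hl h3)

theorem commute_phi_v4Op (h𝔫 : 𝔫 ≠ ⊥) (hl : lvl 𝔫 v ≤ 1) (h3 : (3 : 𝓞 L) ∈ v.asIdeal) :
    Commute (phi 𝔫 v !![1, 1; 0, 1]) (v4Op 𝔫 v) ∧
      Commute (phi 𝔫 v !![-1, 0; 0, 1]) (v4Op 𝔫 v) := by
  rw [v4Op_eq h𝔫]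
  refine ⟨commute_kleinProj_cycle ?_ ?_ ?_, commute_kleinProj_swap ?_ ?_ ?_⟩
  all_goals
    rw [phi_mul h𝔫 hl h3 (by decide) (by decide)]
    exact (phi_rel h𝔫 hl h3 (by decide) (by decide) (by decide) (by decide)).symm

theorem commute_tau_v4Op (h𝔫 : 𝔫 ≠ ⊥) (hl : lvl 𝔫 v ≤ 1) (h3 : (3 : 𝓞 L) ∈ v.asIdeal)
    (hcard : Nat.card (𝓞 L ⧸ v.asIdeal) = 3) (x : 𝓞 L ⧸ v.asIdeal) :
    Commute (tau 𝔫 v x) (v4Op 𝔫 v) := by
  obtain ⟨a, rfl⟩ : ∃ a : ZMod 3, Ideal.Quotient.mk v.asIdeal ((a.valMinAbs : ℤ) : 𝓞 L) = x := by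
    have : Finite (𝓞 L ⧸ v.asIdeal) := Ideal.finiteQuotientOfFreeOfNeBot _ v.ne_bot
    obtain ⟨y, rfl⟩ := Ideal.Quotient.mk_surjective x
    exact exists_residue h3 hcard y
  rw [tau_eq_phi h𝔫 hl h3]
  have hT := (commute_phi_v4Op (𝔫 := 𝔫) h𝔫 hl h3).1
  have hcases : a = 0 ∨ a = 1 ∨ a = 2 := by revert a; decide
  rcases hcases with rfl | rfl | rfl
  · rw [show (!![1, (0 : ZMod 3); 0, 1] : Matrix (Fin 2) (Fin 2) (ZMod 3)) = 1 by decide,
      phi_one h𝔫 hl h3]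
    exact Commute.one_left _
  · exact hT
  · rw [show (!![1, (2 : ZMod 3); 0, 1] : Matrix (Fin 2) (Fin 2) (ZMod 3)) =
      !![1, 1; 0, 1] * !![1, 1; 0, 1] by decide, ← phi_mul h𝔫 hl h3 (by decide) (by decide)]
    exact hT.mul_left hT

end FermatAgent.LT.CO

end
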