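import Mathlib
import Fermat.Agent.LT.Descent.Kernel.CosetOp.Level

set_option autoImplicit false

/-!
# The projection of the level
-/

noncomputable section

open NumberField IsDedekindDomain WithZero
open scoped ComplexConjugate

namespace FermatAgent.LT.CO

variable {L : Type*} [Field L] [NumberField L] {𝔫 : Ideal (𝓞 L)}

open Classical in
/-- The factor of the projection of the level at one place. -/
def levFac (𝔫 : Ideal (𝓞 L)) (ψ : ∀ v : HeightOneSpectrum (𝓞 L), AddChar (𝓞 L ⧸ v.asIdeal) ℂ)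
    (v : HeightOneSpectrum (𝓞 L)) : Module.End ℂ (Cosets 𝔫 → ℂ) :=
  if (3 : 𝓞 L) ∈ v.asIdeal then v4Op 𝔫 v * psiOp 𝔫 v (ψ v) else psiOp 𝔫 v (ψ v)

theorem levelOp_eq_prod (s : Finset (HeightOneSpectrum (𝓞 L)))
    (ψ : ∀ v : HeightOneSpectrum (𝓞 L), AddChar (𝓞 L ⧸ v.asIdeal) ℂ) :
    levelOp 𝔫 s ψ = (s.toList.map (levFac 𝔫 ψ)).prod := rfl

/-- The conditions on one place. -/
structure GoodAt (𝔫 : Ideal (𝓞 L)) (v : HeightOneSpectrum (𝓞 L)) : Prop where
  ne_bot : 𝔫 ≠ ⊥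
  le : 𝔫 ≤ v.asIdeal
  lvl_le : lvl 𝔫 v ≤ 1
  card : (3 : 𝓞 L) ∈ v.asIdeal → Nat.card (𝓞 L ⧸ v.asIdeal) = 3

theorem goodAt (h𝔫 : 𝔫 ≠ ⊥) {s : Finset (HeightOneSpectrum (𝓞 L))}
    (hs : ∀ v ∈ s, 𝔫 ≤ v.asIdeal ∧ ¬ 𝔫 ≤ v.asIdeal ^ 2)
    (h3 : ∀ v ∈ s, (3 : 𝓞 L) ∈ v.asIdeal → Nat.card (𝓞 L ⧸ v.asIdeal) = 3)
    {v : HeightOneSpectrum (𝓞 L)} (hv : v ∈ s) : GoodAt 𝔫 v :=
  ⟨h𝔫, (hs v hv).1, (lvl_eq_one h𝔫 (hs v hv).1 (hs v hv).2).le, h3 v hv⟩

variable {v w : HeightOneSpectrum (𝓞 L)}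
  {ψ : ∀ v : HeightOneSpectrum (𝓞 L), AddChar (𝓞 L ⧸ v.asIdeal) ℂ}

theorem GoodAt.commute_v4_psi (h : GoodAt 𝔫 v) (h3 : (3 : 𝓞 L) ∈ v.asIdeal)
    (χ : AddChar (𝓞 L ⧸ v.asIdeal) ℂ) : Commute (v4Op 𝔫 v) (psiOp 𝔫 v χ) := by
  have : Finite (𝓞 L ⧸ v.asIdeal) := Ideal.finiteQuotientOfFreeOfNeBot _ v.ne_bot
  let _ := Fintype.ofFinite (𝓞 L ⧸ v.asIdeal)
  rw [psiOp_eq]
  exact commute_charProj _ (tau_add h.ne_bot h.lvl_le) χ fun x =>
    (commute_tau_v4Op h.ne_bot h.lvl_le h3 (h.card h3) x).symm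

theorem GoodAt.isCosetOp (h : GoodAt 𝔫 v) : IsCosetOp (levFac 𝔫 ψ v) := by
  unfold levFac
  split_ifs with h3
  · exact IsCosetOp.mul (isCosetOp_v4Op h.ne_bot h3) (isCosetOp_psiOp h.ne_bot h.lvl_le _)
  · exact isCosetOp_psiOp h.ne_bot h.lvl_le _

theorem GoodAt.isHermOp (h : GoodAt 𝔫 v) : IsHermOp (levFac 𝔫 ψ v) := by
  unfold levFac
  split_ifs with h3
  · exact IsHermOp.mul_of_commute (isCosetOp_v4Op h.ne_bot h3) (isCosetOp_psiOp h.ne_bot h.lvl_le _)
      (isHermOp_v4Op h.ne_bot h.lvl_le h3) (isHermOp_psiOp h.ne_bot h.lvl_le _) (h.commute_v4_psi h3 _)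
  · exact isHermOp_psiOp h.ne_bot h.lvl_le _

theorem GoodAt.idem (h : GoodAt 𝔫 v) : levFac 𝔫 ψ v * levFac 𝔫 ψ v = levFac 𝔫 ψ v := by
  unfold levFac
  split_ifs with h3
  · rw [mul_assoc, ← mul_assoc (psiOp 𝔫 v (ψ v)), ← (h.commute_v4_psi h3 (ψ v)).eq, mul_assoc,
      psiOp_idem h.ne_bot h.lvl_le, ← mul_assoc, v4Op_idem h.ne_bot h.lvl_le h3]
  · exact psiOp_idem h.ne_bot h.lvl_le _

theorem commute_locR (h𝔫 : 𝔫 ≠ ⊥) (hvw : v ≠ w) {M : GL (Fin 2) (v.adicCompletion L)}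
    {N : GL (Fin 2) (w.adicCompletion L)} (hM : M ∈ locCongr v 0) (hN : N ∈ locCongr w 0) :
    Commute (locR 𝔫 v M) (locR 𝔫 w N) := by
  refine LinearMap.ext fun f => funext fun q => ?_
  obtain ⟨g, rfl⟩ := QuotientGroup.mk_surjective q
  simp only [Module.End.mul_apply, locR_mk h𝔫 hM, locR_mk h𝔫 hN, mul_assoc]
  rw [(atPlace_commute' hvw M N).eq]

/-- An operator commutes with the projection if it commutes with the translations at `v`. -/
theorem GoodAt.commute_of (h : GoodAt 𝔫 v) {X : Module.End ℂ (Cosets 𝔫 → ℂ)}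
    (hX : ∀ M ∈ locCongr v 0, Commute X (locR 𝔫 v M)) : Commute X (levFac 𝔫 ψ v) := by
  have : Finite (𝓞 L ⧸ v.asIdeal) := Ideal.finiteQuotientOfFreeOfNeBot _ v.ne_bot
  let _ := Fintype.ofFinite (𝓞 L ⧸ v.asIdeal)
  have hp : Commute X (psiOp 𝔫 v (ψ v)) := by
    rw [psiOp_eq]
    exact commute_charProj _ (tau_add h.ne_bot h.lvl_le) _ fun x => hX _ (tMat_mem _)
  unfold levFac
  split_ifs with h3
  · refine Commute.mul_right ?_ hp
    have hphi : ∀ A : Matrix (Fin 2) (Fin 2) (ZMod 3), A.det ≠ 0 → Commute X (phi 𝔫 v A) := by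
      intro A hA
      obtain ⟨M, hM, e⟩ := exists_lift (𝔫 := 𝔫) (v := v) hA
      rw [e]
      exact hX M (lift_mem h3 hA hM)
    rw [v4Op_eq h.ne_bot, kleinProj]
    exact ((((Commute.one_right X).add_right (hphi _ (by decide))).add_right
      (hphi _ (by decide))).add_right (hphi _ (by decide))).smul_right _
  · exact hp

theorem commute_levFac (hv : GoodAt 𝔫 v) (hw : GoodAt 𝔫 w) :
    Commute (levFac 𝔫 ψ v) (levFac 𝔫 ψ w) := by
  rcases eq_or_ne v w with rfl | hvw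
  · exact Commute.refl _
  exact hw.commute_of fun N hN =>
    (hv.commute_of fun M hM => commute_locR hv.ne_bot hvw.symm hN hM).symm

theorem GoodAt.commute_hecke (h : GoodAt 𝔫 v) (hw : ¬ 𝔫 ≤ w.asIdeal) :
    Commute (levFac 𝔫 ψ v) (heckeOp 𝔫 w) := by
  have : Finite (𝓞 L ⧸ w.asIdeal) := Ideal.finiteQuotientOfFreeOfNeBot _ w.ne_bot
  let _ := Fintype.ofFinite (𝓞 L ⧸ w.asIdeal)
  have hvw : v ≠ w := fun e => hw (e ▸ h.le)
  refine (h.commute_of fun M hM => ?_).symm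
  refine LinearMap.ext fun f => funext fun q => ?_
  obtain ⟨g, rfl⟩ := QuotientGroup.mk_surjective q
  simp only [Module.End.mul_apply, locR_mk h.ne_bot hM, heckeOp_apply h.ne_bot hw, mul_assoc]
  exact Finset.sum_congr rfl fun i _ => by rw [(atPlace_commute' hvw M (hMat w i)).eq]

theorem GoodAt.tau_mul_levFac (h : GoodAt 𝔫 v) (x : 𝓞 L ⧸ v.asIdeal) :
    tau 𝔫 v x * levFac 𝔫 ψ v = ψ v x • levFac 𝔫 ψ v := by
  have : Finite (𝓞 L ⧸ v.asIdeal) := Ideal.finiteQuotientOfFreeOfNeBot _ v.ne_bot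
  let _ := Fintype.ofFinite (𝓞 L ⧸ v.asIdeal)
  unfold levFac
  split_ifs with h3
  · rw [← mul_assoc, (commute_tau_v4Op h.ne_bot h.lvl_le h3 (h.card h3) x).eq, mul_assoc, psiOp_eq,
      tau_mul_charProj _ (tau_add h.ne_bot h.lvl_le), mul_smul_comm]
  · rw [psiOp_eq, tau_mul_charProj _ (tau_add h.ne_bot h.lvl_le)]

/-- Every matrix over `𝔽₃` is a four group element times an upper triangular one. -/
theorem tup_decomp : ∀ a b c d : ZMod 3, a * d - b * c ≠ 0 → ∃ n ∈ [((1 : ZMod 3), (0 : ZMod 3), (0 : ZMod 3), (1 : ZMod 3)),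
      (-1, 0, 0, -1), (0, -1, 1, 0), (0, 1, -1, 0), (1, 1, 1, -1), (-1, -1, -1, 1), (1, -1, -1, -1),
      (-1, 1, 1, 1)],
    ∃ e ∈ [(1 : ZMod 3), -1], ∃ x : ZMod 3,
      (a, b, c, d) = (n.1 * e, n.1 * x + n.2.1, n.2.2.1 * e, n.2.2.1 * x + n.2.2.2) := by
  decide

theorem GoodAt.exists_decomp (h : GoodAt 𝔫 v) (h3 : (3 : 𝓞 L) ∈ v.asIdeal)
    {A : Matrix (Fin 2) (Fin 2) (ZMod 3)} (hA : A.det ≠ 0) :
    ∃ (n : Module.End ℂ (Cosets 𝔫 → ℂ)) (x : ZMod 3) (d : Matrix (Fin 2) (Fin 2) (ZMod 3)),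
      (n = 1 ∨ n = phi 𝔫 v mI ∨ n = phi 𝔫 v mJ ∨ n = phi 𝔫 v mK) ∧
      (d = 1 ∨ d = !![-1, 0; 0, 1]) ∧
      phi 𝔫 v A = n * phi 𝔫 v !![1, x; 0, 1] * phi 𝔫 v d := by
  obtain ⟨hl, hb⟩ := And.intro h.lvl_le h.ne_bot
  obtain ⟨n, hn, e, he, x, hxe⟩ := tup_decomp (A 0 0) (A 0 1) (A 1 0) (A 1 1)
    (by rwa [← Matrix.det_fin_two])
  simp only [Prod.mk.injEq] at hxe
  set N : Matrix (Fin 2) (Fin 2) (ZMod 3) := !![n.1, n.2.1; n.2.2.1, n.2.2.2] with hN
  have hAeq : A = N * (!![1, x; 0, 1] * !![e, 0; 0, 1]) := by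
    refine Matrix.ext fun i j => ?_
    fin_cases i <;> fin_cases j <;> simp [hN, hxe]
  have hx : (!![1, x; 0, 1] : Matrix (Fin 2) (Fin 2) (ZMod 3)).det ≠ 0 := by
    simp [Matrix.det_fin_two]
  have hn0 : N.det ≠ 0 := fun h0 => hA (by rw [hAeq, Matrix.det_mul, h0, zero_mul])
  have he0 : (!![e, 0; 0, 1] : Matrix (Fin 2) (Fin 2) (ZMod 3)).det ≠ 0 := fun h0 => hA (by
    rw [hAeq, Matrix.det_mul, Matrix.det_mul, h0, mul_zero, mul_zero])
  refine ⟨phi 𝔫 v N, x, !![e, 0; 0, 1], ?_, ?_, ?_⟩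
  · have hneg : ∀ B : Matrix (Fin 2) (Fin 2) (ZMod 3), B.det ≠ 0 → (N = B ∨ N = -B) →
        phi 𝔫 v N = phi 𝔫 v B := fun B hB hh => by
      rcases hh with e | e
      · rw [e]
      · rw [e, phi_neg hb hl h3 hB]
    simp only [List.mem_cons, List.not_mem_nil, or_false] at hn
    rcases hn with rfl | rfl | rfl | rfl | rfl | rfl | rfl | rfl
    · exact Or.inl (by rw [hneg 1 (by decide) (Or.inl (by rw [hN]; decide)), phi_one hb hl h3])
    · exact Or.inl (by rw [hneg 1 (by decide) (Or.inr (by rw [hN]; decide)), phi_one hb hl h3])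
    · exact Or.inr (Or.inl (hneg mI (by decide) (Or.inl (by rw [hN]; decide))))
    · exact Or.inr (Or.inl (hneg mI (by decide) (Or.inr (by rw [hN]; decide))))
    · exact Or.inr (Or.inr (Or.inl (hneg mJ (by decide) (Or.inl (by rw [hN]; decide)))))
    · exact Or.inr (Or.inr (Or.inl (hneg mJ (by decide) (Or.inr (by rw [hN]; decide)))))
    · exact Or.inr (Or.inr (Or.inr (hneg mK (by decide) (Or.inl (by rw [hN]; decide)))))
    · exact Or.inr (Or.inr (Or.inr (hneg mK (by decide) (Or.inr (by rw [hN]; decide)))))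
  · simp only [List.mem_cons, List.not_mem_nil, or_false] at he
    rcases he with rfl | rfl
    · exact Or.inl (by decide)
    · exact Or.inr rfl
  · rw [hAeq, phi_mul hb hl h3 hn0 hx, phi_mul hb hl h3 (by
      rw [Matrix.det_mul]; exact mul_ne_zero hn0 hx) he0, mul_assoc N]

theorem GoodAt.sum_mul_locR_mul (h : GoodAt 𝔫 v) [Fintype (𝓞 L ⧸ v.asIdeal)]
    (h3 : (3 : 𝓞 L) ∈ v.asIdeal) (hψ : ψ v ≠ 1) {M : GL (Fin 2) (v.adicCompletion L)}
    (hM : M ∈ locCongr v 0) :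
    (∑ x, tau 𝔫 v x) * locR 𝔫 v M * levFac 𝔫 ψ v = 0 := by
  have hb := h.ne_bot
  have hl := h.lvl_le
  have hcard := h.card h3
  obtain ⟨A, hA, eA⟩ := exists_phi hb hl h3 hcard hM
  obtain ⟨n, x, d, hn, hd, e⟩ := h.exists_decomp h3 hA
  set S := ∑ x, tau 𝔫 v x
  set V := v4Op 𝔫 v
  set P := psiOp 𝔫 v (ψ v)
  set U := phi 𝔫 v !![1, x; 0, 1] with hU
  set D := phi 𝔫 v d
  have hU' : U = tau 𝔫 v (Ideal.Quotient.mk v.asIdeal ((x.valMinAbs : ℤ) : 𝓞 L)) :=
    (tau_eq_phi hb hl h3 x).symm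
  have hUV : Commute U V := by rw [hU']; exact commute_tau_v4Op hb hl h3 hcard _
  have hDV : Commute D V := by
    rcases hd with rfl | rfl
    · show Commute (phi 𝔫 v 1) V
      rw [phi_one hb hl h3]; exact Commute.one_left _
    · exact (commute_phi_v4Op hb hl h3).2
  have hSV : Commute S V := Commute.sum_left _ _ _ fun y _ => commute_tau_v4Op hb hl h3 hcard y
  have hSU : S * U = S := by rw [hU']; exact sum_mul_tau _ (tau_add hb hl) _
  have hnV : n * V = V := by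
    rw [show V = kleinProj _ _ _ from v4Op_eq hb]
    exact mul_kleinProj (isKlein_phi hb hl h3) hn
  have hSD : S * D = D * S := by
    rcases hd with rfl | rfl
    · show S * phi 𝔫 v 1 = phi 𝔫 v 1 * S
      rw [phi_one hb hl h3, mul_one, one_mul]
    · have hneg : ∀ y : 𝓞 L ⧸ v.asIdeal, tau 𝔫 v y * D = D * tau 𝔫 v (-y) := by
        intro y
        obtain ⟨o, rfl⟩ := Ideal.Quotient.mk_surjective y
        obtain ⟨a, ha⟩ := exists_residue h3 hcard o
        rw [← ha, ← map_neg (Ideal.Quotient.mk v.asIdeal),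
          show -((a.valMinAbs : ℤ) : 𝓞 L) = (((-a).valMinAbs : ℤ) : 𝓞 L) by
            rw [show (-a).valMinAbs = -a.valMinAbs from (by decide : ∀ b : ZMod 3, (-b).valMinAbs = -b.valMinAbs) a]
            push_cast
            rfl,
          tau_eq_phi hb hl h3, tau_eq_phi hb hl h3]
        show phi 𝔫 v !![1, a; 0, 1] * phi 𝔫 v !![-1, 0; 0, 1] = _
        rw [phi_mul hb hl h3 (by simp [Matrix.det_fin_two]) (by decide)]
        show _ = phi 𝔫 v !![-1, 0; 0, 1] * phi 𝔫 v !![1, -a; 0, 1]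
        rw [phi_mul hb hl h3 (by decide) (by simp [Matrix.det_fin_two])]
        congr 1
        refine Matrix.ext fun i j => ?_
        fin_cases i <;> fin_cases j <;> simp
      rw [Finset.sum_mul, Finset.mul_sum]
      exact Fintype.sum_equiv (Equiv.neg _) _ _ fun y => by rw [Equiv.neg_apply]; exact hneg y
  have hSP : S * P = 0 := by
    show S * psiOp 𝔫 v (ψ v) = 0
    rw [psiOp_eq]
    exact sum_mul_charProj _ (tau_add hb hl) _ hψ
  rw [eA, e, levFac, if_pos h3]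
  calc S * (n * U * D) * (V * P) = S * (n * ((U * D) * V)) * P := by simp only [mul_assoc]
    _ = S * (n * (V * (U * D))) * P := by rw [(hUV.mul_left hDV).eq]
    _ = (S * V) * (U * (D * P)) := by rw [← mul_assoc n, hnV]; simp only [mul_assoc]
    _ = V * ((S * U) * (D * P)) := by rw [hSV.eq]; simp only [mul_assoc]
    _ = V * (D * (S * P)) := by rw [hSU, ← mul_assoc S, hSD, mul_assoc]
    _ = 0 := by rw [hSP, mul_zero, mul_zero]

theorem GoodAt.levFac_eq_self (h : GoodAt 𝔫 v) {f : Cosets 𝔫 → ℂ}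
    (hψ : IsPsiAt v (ψ v) fun _ g => f (g : Cosets 𝔫)) (hne : (3 : 𝓞 L) ∈ v.asIdeal → ψ v ≠ 1)
    (hc : (3 : 𝓞 L) ∈ v.asIdeal → IsCuspidalAt v fun _ g => f (g : Cosets 𝔫)) :
    levFac 𝔫 ψ v f = f := by
  have : Finite (𝓞 L ⧸ v.asIdeal) := Ideal.finiteQuotientOfFreeOfNeBot _ v.ne_bot
  let _ := Fintype.ofFinite (𝓞 L ⧸ v.asIdeal)
  have hb := h.ne_bot
  have hl := h.lvl_le
  let x0 : XInf L := fun _ => ⟨0, 1, one_pos⟩
  have htau : ∀ x, tau 𝔫 v x • f = ψ v x • f := by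
    intro x
    refine funext fun q => ?_
    obtain ⟨g, rfl⟩ := QuotientGroup.mk_surjective q
    rw [Module.End.smul_def, tau, locR_mk hb (tMat_mem _), ← transl_eq]
    have := hψ x0 g (resRep v x)
    rw [mk_resRep] at this
    exact this
  have hP : psiOp 𝔫 v (ψ v) f = f := by
    rw [psiOp_eq]
    exact smul_charProj_eq _ (tau_add hb hl) (ψ v) htau
  unfold levFac
  split_ifs with h3
  · rw [Module.End.mul_apply, hP]
    have hcard := h.card h3
    set ω : ℂ := ψ v (Ideal.Quotient.mk v.asIdeal (((1 : ZMod 3).valMinAbs : ℤ) : 𝓞 L)) with hω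
    have hsum : ∀ F : (𝓞 L ⧸ v.asIdeal) → Module.End ℂ (Cosets 𝔫 → ℂ), ∑ y, F y =
        ∑ a : ZMod 3, F (Ideal.Quotient.mk v.asIdeal ((a.valMinAbs : ℤ) : 𝓞 L)) := fun F =>
      (Fintype.sum_equiv (Equiv.ofBijective _ (bijective_residue h3 hcard)) _ F fun a => rfl).symm
    have htwo : Ideal.Quotient.mk v.asIdeal (((2 : ZMod 3).valMinAbs : ℤ) : 𝓞 L) =
        Ideal.Quotient.mk v.asIdeal (((1 : ZMod 3).valMinAbs : ℤ) : 𝓞 L) +
          Ideal.Quotient.mk v.asIdeal (((1 : ZMod 3).valMinAbs : ℤ) : 𝓞 L) := by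
      rw [← map_add, Ideal.Quotient.eq, show (2 : ZMod 3).valMinAbs = -1 from rfl,
        valMinAbs_one_three]
      have : ((-1 : ℤ) : 𝓞 L) - ((( 1 : ℤ) : 𝓞 L) + ((1 : ℤ) : 𝓞 L)) = -3 := by push_cast; ring
      rw [this]
      exact neg_mem h3
    have hz : Ideal.Quotient.mk v.asIdeal (((0 : ZMod 3).valMinAbs : ℤ) : 𝓞 L) = 0 := by simp
    have hω0 : ω ^ 2 + ω + 1 = 0 := by
      classical
      have h0 : ∑ y, ψ v y = 0 := by
        rw [AddChar.sum_eq_ite, if_neg (by rw [← AddChar.one_eq_zero]; exact hne h3)]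
      rw [← Fintype.sum_equiv (Equiv.ofBijective _ (bijective_residue h3 hcard))
        (fun a => ψ v (Ideal.Quotient.mk v.asIdeal ((a.valMinAbs : ℤ) : 𝓞 L))) (fun y => ψ v y)
        fun a => rfl] at h0
      rw [show (Finset.univ : Finset (ZMod 3)) = {0, 1, 2} by decide, Finset.sum_insert (by decide),
        Finset.sum_insert (by decide), Finset.sum_singleton, hz, htwo, AddChar.map_zero_eq_one,
        AddChar.map_add_eq_mul, ← hω] at h0
      linear_combination h0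
    set T := phi 𝔫 v !![1, 1; 0, 1]
    have hT : T • f = ω • f := by
      show phi 𝔫 v !![1, 1; 0, 1] • f = _
      rw [← tau_eq_phi hb hl h3, htau, valMinAbs_one_three]
      rw [hω, valMinAbs_one_three]
    have hS : (1 + T + T * T) • phi 𝔫 v mI • f = 0 := by
      have e : ∑ y, tau 𝔫 v y = 1 + T + T * T := by
        rw [hsum, show (Finset.univ : Finset (ZMod 3)) = {0, 1, 2} by decide,
          Finset.sum_insert (by decide), Finset.sum_insert (by decide), Finset.sum_singleton, hz, htwo,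
          tau_add hb hl, tau_zero hb hl, tau_eq_phi hb hl h3, add_assoc]
      rw [← e]
      refine funext fun q => ?_
      obtain ⟨g, rfl⟩ := QuotientGroup.mk_surjective q
      obtain ⟨M, hM, eM⟩ := exists_lift (𝔫 := 𝔫) (v := v) (A := mI) (by decide)
      have mM := lift_mem h3 (by decide) hM
      let M' : GL (Fin 2) (v.adicCompletionIntegers L) :=
        ⟨Matrix.of fun i j => ⟨M.val i j, (smallM_of_mem mM).le_one i j⟩,
          Matrix.of fun i j => ⟨M⁻¹.val i j, (smallM_of_mem (inv_mem mM)).le_one i j⟩, by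
          refine Matrix.ext fun i j => Subtype.ext ?_
          have h1 := congrFun (congrFun M.mul_inv i) j
          simp only [Matrix.mul_apply, Fin.sum_univ_two, Matrix.of_apply, Matrix.one_apply] at h1 ⊢
          split_ifs at h1 ⊢ <;> exact h1, by
          refine Matrix.ext fun i j => Subtype.ext ?_
          have h1 := congrFun (congrFun M.inv_mul i) j
          simp only [Matrix.mul_apply, Fin.sum_univ_two, Matrix.of_apply, Matrix.one_apply] at h1 ⊢
          split_ifs at h1 ⊢ <;> exact h1⟩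
      have hM' : Matrix.GeneralLinearGroup.map (v.adicCompletionIntegers L).subtype M' = M :=
        Units.ext (Matrix.ext fun i j => rfl)
      have h0 := hc h3 x0 g M'
      rw [hM', finsum_eq_sum_of_fintype] at h0
      simp only [Module.End.smul_def, LinearMap.sum_apply, Finset.sum_apply, eM, tau,
        locR_mk hb (tMat_mem _), locR_mk hb mM, ← transl_eq]
      exact h0
    rw [v4Op_eq hb, ← Module.End.smul_def]
    refine kleinProj_smul_eq (isKlein_phi hb hl h3) (T := T) ?_ ?_ hω0 hT hS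
    all_goals
      rw [phi_mul hb hl h3 (by decide) (by decide)]
      exact (phi_rel hb hl h3 (by decide) (by decide) (by decide) (by decide)).symm
  · exact hP

theorem apply_list_prod_eq {ι : Type*} (F : ι → Module.End ℂ (Cosets 𝔫 → ℂ)) {f : Cosets 𝔫 → ℂ}
    (l : List ι) (h : ∀ i ∈ l, F i f = f) : (l.map F).prod f = f := by
  induction l with
  | nil => rfl
  | cons a l ih =>
    rw [List.map_cons, List.prod_cons, Module.End.mul_apply, ih fun i hi => h i (by simp [hi]),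
      h a (by simp)]

theorem list_prod_idem {R : Type*} [Monoid R] (l : List R) (hi : ∀ x ∈ l, x * x = x)
    (hc : ∀ x ∈ l, ∀ y ∈ l, Commute x y) : l.prod * l.prod = l.prod := by
  induction l with
  | nil => simp
  | cons a l ih =>
    have ha : Commute a l.prod := Commute.list_prod_right _ _ fun y hy => hc a (by simp) y (by simp [hy])
    rw [List.prod_cons, ha.symm.mul_mul_mul_comm, hi a (by simp),
      ih (fun x hx => hi x (by simp [hx])) fun x hx y hy => hc x (by simp [hx]) y (by simp [hy])]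

theorem list_prod_coset (l : List (Module.End ℂ (Cosets 𝔫 → ℂ))) (h : ∀ x ∈ l, IsCosetOp x) :
    IsCosetOp l.prod := by
  induction l with
  | nil => exact isCosetOp_one
  | cons a l ih =>
    rw [List.prod_cons]
    exact IsCosetOp.mul (h a (by simp)) (ih fun x hx => h x (by simp [hx]))

theorem list_prod_herm (l : List (Module.End ℂ (Cosets 𝔫 → ℂ))) (h : ∀ x ∈ l, IsCosetOp x)
    (h' : ∀ x ∈ l, IsHermOp x) (hc : ∀ x ∈ l, ∀ y ∈ l, Commute x y) : IsHermOp l.prod := by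
  induction l with
  | nil => exact hermOp_one
  | cons a l ih =>
    rw [List.prod_cons]
    exact IsHermOp.mul_of_commute (h a (by simp)) (list_prod_coset l fun x hx => h x (by simp [hx]))
      (h' a (by simp)) (ih (fun x hx => h x (by simp [hx])) (fun x hx => h' x (by simp [hx]))
        fun x hx y hy => hc x (by simp [hx]) y (by simp [hy]))
      (Commute.list_prod_right _ _ fun y hy => hc a (by simp) y (by simp [hy]))

theorem levelOp_split {s : Finset (HeightOneSpectrum (𝓞 L))} (hg : ∀ v ∈ s, GoodAt 𝔫 v)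
    (hv : v ∈ s) : ∃ R, levelOp 𝔫 s ψ = levFac 𝔫 ψ v * R := by
  classical
  refine ⟨((s.toList.erase v).map (levFac 𝔫 ψ)).prod, ?_⟩
  rw [levelOp_eq_prod, ← List.prod_cons, ← List.map_cons (f := levFac 𝔫 ψ)]
  refine List.Perm.prod_eq' ((List.perm_cons_erase (Finset.mem_toList.mpr hv)).map _) ?_
  refine List.Pairwise.map _ (fun a b hab => hab) ?_
  exact List.Pairwise.imp_of_mem (R := fun _ _ => True)
    (fun {a b} ha hb _ => commute_levFac (hg a (Finset.mem_toList.mp ha)) (hg b (Finset.mem_toList.mp hb)))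
    (List.pairwise_of_forall fun _ _ => trivial)

end FermatAgent.LT.CO

end
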