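import Mathlib
import Fermat.Agent.LT.Descent.Kernel.CosetOp.LevelOp

set_option autoImplicit false
set_option linter.unusedSectionVars false

/-!
# The action of an automorphism on the operators of the cosets
-/

noncomputable section

open NumberField IsDedekindDomain WithZero

namespace FermatAgent.LT.CO

variable {L : Type*} [Field L] [NumberField L] {𝔫 : Ideal (𝓞 L)}

theorem galAdele_galAdele (σ τ : L ≃+* L) (h : ∀ x, σ (τ x) = x) (a : Adf L) :
    galAdele σ (galAdele τ a) = a := by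
  refine FiniteAdeleRing.ext _ fun w => ?_
  rw [galAdele_apply, galAdele_apply]
  have key : ∀ (u : HeightOneSpectrum (𝓞 L)) (_ : u = w) (φ : u.adicCompletion L → w.adicCompletion L),
      Continuous φ → (∀ x, φ (loc u x) = loc w x) → φ (a u) = a w := by
    rintro u rfl φ hφ hx
    exact congrFun ((HeightOneSpectrum.denseRange_algebraMap (K := L) u).equalizer hφ continuous_id
      (funext hx)) (a u)
  refine key (galPlace τ (galPlace σ w)) ?_
    (fun b => galLoc σ w (galLoc τ (galPlace σ w) b))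
    ((continuous_galLoc σ w).comp (continuous_galLoc τ _)) fun x => by
      rw [galLoc_coe, galLoc_coe, h]
  refine HeightOneSpectrum.ext (Ideal.ext fun y => ?_)
  rw [galPlace_asIdeal, galPlace_asIdeal, Ideal.mem_comap, Ideal.mem_comap,
    show galInt σ (galInt τ y) = y from RingOfIntegers.ext (by rw [galInt_coe, galInt_coe, h])]

theorem galGAf_galGAf (σ τ : L ≃+* L) (h : ∀ x, σ (τ x) = x) (g : GAf L) :
    galGAf σ (galGAf τ g) = g :=
  Units.ext (Matrix.ext fun i j => galAdele_galAdele σ τ h (g i j))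

theorem map_galInt_symm {σ : L ≃+* L} (hσ : 𝔫.map (galInt σ) = 𝔫) :
    𝔫.map (galInt σ.symm) = 𝔫 := by
  conv_lhs => rw [← hσ]
  rw [show galInt σ.symm = (galInt σ).symm from
      RingEquiv.ext fun x => RingOfIntegers.ext rfl, Ideal.map_symm]
  exact Ideal.comap_map_of_bijective _ (galInt σ).bijective

theorem lvl_galPlace (h𝔫 : 𝔫 ≠ ⊥) {σ : L ≃+* L} (hσ : 𝔫.map (galInt σ) = 𝔫)
    (w : HeightOneSpectrum (𝓞 L)) : lvl 𝔫 (galPlace σ w) = lvl 𝔫 w := by
  refine eq_of_forall_le_iff fun k => ?_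
  rw [le_lvl_iff h𝔫, le_lvl_iff h𝔫]
  constructor <;> intro h
  · rw [← hσ]
    refine (Ideal.map_mono h).trans ?_
    rw [Ideal.map_pow, galPlace_asIdeal, Ideal.map_comap_of_surjective _ (galInt σ).surjective]
  · intro y hy
    rw [galPlace_asIdeal, ← Ideal.map_symm (galInt σ), ← Ideal.map_pow, Ideal.map_symm, Ideal.mem_comap]
    exact h (hσ ▸ Ideal.mem_map_of_mem _ hy)

variable (σ : L ≃+* L) (w : HeightOneSpectrum (𝓞 L))

theorem valued_galLoc (a : (galPlace σ w).adicCompletion L) :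
    Valued.v (galLoc σ w a) = Valued.v a := by
  rcases eq_or_ne a 0 with rfl | ha
  · simp
  set π := loc (galPlace σ w) (pi (galPlace σ w) : L)
  have hπ : Valued.v π = exp (-1 : ℤ) := valued_uniformizer _
  have hπ' : Valued.v (galLoc σ w π) = exp (-1 : ℤ) := by
    rw [galLoc_coe, valued_loc, valuation_gal, ← valued_loc, valued_uniformizer]
  have h0 : Valued.v a ≠ 0 := (Valuation.ne_zero_iff _).mpr ha
  obtain ⟨n, hn⟩ : ∃ n : ℤ, Valued.v a = exp n := ⟨_, (exp_log h0).symm⟩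
  set u := a * π ^ n with hu
  have hu1 : Valued.v u = 1 := by
    rw [hu, map_mul, map_zpow₀, hπ, hn, ← exp_zsmul, ← exp_add]
    simp
  have hle : ∀ b : (galPlace σ w).adicCompletion L, Valued.v b ≤ 1 → Valued.v (galLoc σ w b) ≤ 1 :=
    fun b hb => galLoc_mem σ w hb
  have hu' : Valued.v (galLoc σ w u) = 1 := by
    refine le_antisymm (hle u hu1.le) ?_
    have h1 := hle u⁻¹ (by rw [map_inv₀, hu1, inv_one])
    rw [map_inv₀, map_inv₀] at h1
    have hne : Valued.v (galLoc σ w u) ≠ 0 := by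
      rw [Valuation.ne_zero_iff, map_ne_zero]
      intro h
      rw [h, map_zero] at hu1
      exact zero_ne_one hu1
    exact (inv_le_one₀ (zero_lt_iff.mpr hne)).mp h1
  rw [hu, map_mul, map_zpow₀, map_mul, map_zpow₀, hπ'] at hu'
  rw [hu, map_mul, map_zpow₀, hπ] at hu1
  exact mul_right_cancel₀ (zpow_ne_zero n exp_ne_zero) (hu'.trans hu1.symm)

theorem map_galLoc_mem {n : ℕ} {M : GL (Fin 2) ((galPlace σ w).adicCompletion L)} :
    Matrix.GeneralLinearGroup.map (galLoc σ w) M ∈ locCongr w n ↔ M ∈ locCongr (galPlace σ w) n := by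
  have key : ∀ N : GL (Fin 2) ((galPlace σ w).adicCompletion L),
      SmallM w n ((Matrix.GeneralLinearGroup.map (galLoc σ w) N).val - 1) ↔
        SmallM (galPlace σ w) n (N.val - 1) := by
    intro N
    refine forall_congr' fun i => forall_congr' fun j => ?_
    rw [← valued_galLoc σ w]
    simp [Matrix.sub_apply, Matrix.one_apply, apply_ite (galLoc σ w)]
  show _ ∧ _ ↔ _ ∧ _
  rw [key, ← map_inv, key]

theorem locMat_galGAf (g : GAf L) :
    locMat w (galGAf σ g) =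
      Matrix.GeneralLinearGroup.map (galLoc σ w) (locMat (galPlace σ w) g) :=
  Units.ext (Matrix.ext fun _ _ => rfl)

theorem galGAf_atPlace (M : GL (Fin 2) ((galPlace σ w).adicCompletion L)) :
    galGAf σ (atPlace (galPlace σ w) M) =
      atPlace w (Matrix.GeneralLinearGroup.map (galLoc σ w) M) := by
  refine ext_locMat fun u => ?_
  rw [locMat_galGAf]
  rcases eq_or_ne u w with rfl | hu
  · rw [locMat_atPlace_self, locMat_atPlace_self]
  · rw [locMat_atPlace_ne _ (fun e => hu (galPlace_injective σ e)), locMat_atPlace_ne _ hu, map_one]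

variable {σ} (h𝔫 : 𝔫 ≠ ⊥) (hσ : 𝔫.map (galInt σ) = 𝔫)
include h𝔫 hσ

theorem galGAf_mem_level {g : GAf L} (hg : g ∈ levelGroup 𝔫) : galGAf σ g ∈ levelGroup 𝔫 := by
  obtain ⟨u, hu, z, rfl⟩ := mem_levelGroup_iff.mp hg
  refine mem_levelGroup_iff.mpr ⟨galGAf σ u, (mem_congr_iff h𝔫).mpr fun v => ?_,
    Units.map (galAdele σ).toMonoidHom z, ?_⟩
  · rw [locMat_galGAf, map_galLoc_mem, ← lvl_galPlace h𝔫 hσ v]
    exact (mem_congr_iff h𝔫).mp hu _
  · rw [map_mul]
    congr 1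
    exact Matrix.GeneralLinearGroup.map_scalar _ _

theorem _root_.FermatAgent.LT.galCoset_mk (g : GAf L) :
    galCoset σ (g : Cosets 𝔫) = (galGAf σ g : GAf L) := by
  obtain ⟨u, hu⟩ := QuotientGroup.mk_out_eq_mul (levelGroup 𝔫) g
  rw [galCoset, hu, map_mul]
  exact (QuotientGroup.eq.mpr (by
    rw [inv_mul_cancel_left]; exact galGAf_mem_level h𝔫 hσ u.2)).symm

theorem _root_.FermatAgent.LT.galCoset_bijective :
    Function.Bijective (galCoset σ : Cosets 𝔫 → Cosets 𝔫) := by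
  refine Function.bijective_iff_has_inverse.mpr ⟨galCoset σ.symm, fun q => ?_, fun q => ?_⟩ <;>
    obtain ⟨g, rfl⟩ := QuotientGroup.mk_surjective q
  · rw [galCoset_mk h𝔫 hσ, galCoset_mk h𝔫 (map_galInt_symm hσ),
      galGAf_galGAf _ _ σ.symm_apply_apply]
  · rw [galCoset_mk h𝔫 (map_galInt_symm hσ), galCoset_mk h𝔫 hσ,
      galGAf_galGAf _ _ σ.apply_symm_apply]

theorem rightOp_galCoset {M : GL (Fin 2) ((galPlace σ w).adicCompletion L)}
    (hM : M ∈ locCongr (galPlace σ w) 0) (f : Cosets 𝔫 → ℂ) :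
    locR 𝔫 (galPlace σ w) M (f ∘ galCoset σ) =
      locR 𝔫 w (Matrix.GeneralLinearGroup.map (galLoc σ w) M) f ∘ galCoset σ := by
  refine funext fun q => ?_
  obtain ⟨g, rfl⟩ := QuotientGroup.mk_surjective q
  rw [Function.comp_apply, galCoset_mk h𝔫 hσ, locR_mk h𝔫 hM,
    locR_mk h𝔫 ((map_galLoc_mem σ w).mpr hM), Function.comp_apply, galCoset_mk h𝔫 hσ, map_mul,
    galGAf_atPlace]

variable {w} in
theorem _root_.FermatAgent.LT.heckeOp_galCoset (hw : ¬ 𝔫 ≤ w.asIdeal) (f : Cosets 𝔫 → ℂ) :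
    heckeOp 𝔫 (galPlace σ w) (f ∘ galCoset σ) = heckeOp 𝔫 w f ∘ galCoset σ := by
  have : Finite (𝓞 L ⧸ w.asIdeal) := Ideal.finiteQuotientOfFreeOfNeBot _ w.ne_bot
  let _ := Fintype.ofFinite (𝓞 L ⧸ w.asIdeal)
  have : Finite (𝓞 L ⧸ (galPlace σ w).asIdeal) :=
    Ideal.finiteQuotientOfFreeOfNeBot _ (galPlace σ w).ne_bot
  let _ := Fintype.ofFinite (𝓞 L ⧸ (galPlace σ w).asIdeal)
  have hw' : ¬ 𝔫 ≤ (galPlace σ w).asIdeal := fun h => hw (by
    rw [← pow_one w.asIdeal, ← le_lvl_iff h𝔫, ← lvl_galPlace h𝔫 hσ, le_lvl_iff h𝔫, pow_one]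
    exact h)
  refine funext fun q => ?_
  obtain ⟨g, rfl⟩ := QuotientGroup.mk_surjective q
  rw [Function.comp_apply, galCoset_mk h𝔫 hσ, heckeOp_apply h𝔫 hw',
    heckeOp_family h𝔫 hw (fun i => Matrix.GeneralLinearGroup.map (galLoc σ w) (hMat (galPlace σ w) i))]
  · refine Finset.sum_congr rfl fun i _ => ?_
    rw [Function.comp_apply, galCoset_mk h𝔫 hσ, map_mul, galGAf_atPlace]
  · intro i
    have h := intDet_hMat (v := galPlace σ w) i
    refine ⟨smallM_of_le_one fun a b => ?_, ?_⟩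
    · rw [Matrix.GeneralLinearGroup.map_apply, valued_galLoc]
      exact h.1.le_one a b
    · rw [← h.2, ← valued_galLoc σ w (hMat (galPlace σ w) i).val.det, RingHom.map_det]
      rfl
  · intro i j hij
    rw [← map_inv, ← map_mul, map_galLoc_mem] at hij
    exact hMat_inj i j hij
  · simp only [Fintype.card_option, add_left_inj]
    exact Fintype.card_congr (Ideal.quotientEquiv _ _ (galInt σ) (by
      rw [galPlace_asIdeal]
      exact (Ideal.map_comap_of_surjective _ (galInt σ).surjective _).symm)).toEquiv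

theorem psiOp_galCoset (hl : lvl 𝔫 w ≤ 1) {ψ : ∀ v : HeightOneSpectrum (𝓞 L), AddChar (𝓞 L ⧸ v.asIdeal) ℂ}
    (hψ : ∀ b, ψ (galPlace σ w) (Ideal.Quotient.mk _ b) = ψ w (Ideal.Quotient.mk _ (galInt σ b)))
    (f : Cosets 𝔫 → ℂ) :
    psiOp 𝔫 (galPlace σ w) (ψ (galPlace σ w)) (f ∘ galCoset σ) =
      psiOp 𝔫 w (ψ w) f ∘ galCoset σ := by
  have : Finite (𝓞 L ⧸ w.asIdeal) := Ideal.finiteQuotientOfFreeOfNeBot _ w.ne_bot
  let _ := Fintype.ofFinite (𝓞 L ⧸ w.asIdeal)
  have : Finite (𝓞 L ⧸ (galPlace σ w).asIdeal) :=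
    Ideal.finiteQuotientOfFreeOfNeBot _ (galPlace σ w).ne_bot
  let _ := Fintype.ofFinite (𝓞 L ⧸ (galPlace σ w).asIdeal)
  set e := Ideal.quotientEquiv (galPlace σ w).asIdeal w.asIdeal (galInt σ) (by
    rw [galPlace_asIdeal]
    exact (Ideal.map_comap_of_surjective _ (galInt σ).surjective _).symm)
  have he : ∀ b, e (Ideal.Quotient.mk _ b) = Ideal.Quotient.mk w.asIdeal (galInt σ b) := fun b => rfl
  have hterm : ∀ x, tau 𝔫 (galPlace σ w) x (f ∘ galCoset σ) = tau 𝔫 w (e x) f ∘ galCoset σ := by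
    intro x
    rw [tau, rightOp_galCoset w h𝔫 hσ (tMat_mem _),
      show Matrix.GeneralLinearGroup.map (galLoc σ w) (tMat (galPlace σ w) (resRep (galPlace σ w) x)) =
        tMat w (galInt σ (resRep (galPlace σ w) x)) from Units.ext (Matrix.ext fun i j => by
          fin_cases i <;> fin_cases j <;> simp [tMat, upperTri, galInt_coe, galLoc_coe]),
      locR_tMat h𝔫 hl, ← he, mk_resRep]
  have hcard : Fintype.card (𝓞 L ⧸ (galPlace σ w).asIdeal) = Fintype.card (𝓞 L ⧸ w.asIdeal) :=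
    Fintype.card_congr e.toEquiv
  rw [psiOp_eq, psiOp_eq, charProj, charProj]
  simp only [LinearMap.smul_apply, LinearMap.sum_apply, hcard, hterm]
  refine funext fun q => ?_
  simp only [Pi.smul_apply, Finset.sum_apply, Function.comp_apply]
  congr 1
  refine Fintype.sum_equiv e.toEquiv _ _ fun x => ?_
  obtain ⟨b, rfl⟩ := Ideal.Quotient.mk_surjective x
  simp only [RingEquiv.toEquiv_eq_coe, EquivLike.coe_coe, he, hψ]

theorem v4Op_galCoset (h3 : (3 : 𝓞 L) ∈ w.asIdeal) (f : Cosets 𝔫 → ℂ) :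
    v4Op 𝔫 (galPlace σ w) (f ∘ galCoset σ) = v4Op 𝔫 w f ∘ galCoset σ := by
  have h3' : (3 : 𝓞 L) ∈ (galPlace σ w).asIdeal := by
    rw [galPlace_asIdeal, Ideal.mem_comap, map_ofNat]; exact h3
  have key : ∀ A : Matrix (Fin 2) (Fin 2) (ZMod 3), A.det ≠ 0 →
      phi 𝔫 (galPlace σ w) A (f ∘ galCoset σ) = phi 𝔫 w A f ∘ galCoset σ := by
    intro A hA
    obtain ⟨M, hM, e⟩ := exists_lift (𝔫 := 𝔫) (v := galPlace σ w) hA
    rw [e, rightOp_galCoset w h𝔫 hσ (lift_mem h3' hA hM),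
      phi_of_val (A := A) (M := Matrix.GeneralLinearGroup.map (galLoc σ w) M)]
    refine Matrix.ext fun i j => ?_
    rw [Matrix.GeneralLinearGroup.map_apply, hM]
    simp [liftM]
  rw [v4Op_eq h𝔫, v4Op_eq h𝔫, kleinProj, kleinProj]
  simp only [LinearMap.smul_apply, LinearMap.add_apply, Module.End.one_apply,
    key mI (by decide), key mJ (by decide), key mK (by decide)]
  exact funext fun q => rfl

theorem levFac_galCoset (hg : GoodAt 𝔫 w) {ψ : ∀ v : HeightOneSpectrum (𝓞 L), AddChar (𝓞 L ⧸ v.asIdeal) ℂ}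
    (hψ : ∀ b, ψ (galPlace σ w) (Ideal.Quotient.mk _ b) = ψ w (Ideal.Quotient.mk _ (galInt σ b)))
    (f : Cosets 𝔫 → ℂ) :
    levFac 𝔫 ψ (galPlace σ w) (f ∘ galCoset σ) = levFac 𝔫 ψ w f ∘ galCoset σ := by
  have hiff : (3 : 𝓞 L) ∈ (galPlace σ w).asIdeal ↔ (3 : 𝓞 L) ∈ w.asIdeal := by
    rw [galPlace_asIdeal, Ideal.mem_comap, map_ofNat]
  unfold levFac
  by_cases h3 : (3 : 𝓞 L) ∈ w.asIdeal
  · rw [if_pos h3, if_pos (hiff.mpr h3), Module.End.mul_apply, Module.End.mul_apply,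
      psiOp_galCoset w h𝔫 hσ hg.lvl_le hψ, v4Op_galCoset w h𝔫 hσ h3]
  · rw [if_neg h3, if_neg (fun h => h3 (hiff.mp h)), psiOp_galCoset w h𝔫 hσ hg.lvl_le hψ]

end FermatAgent.LT.CO

end
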